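import Fermat.Agent.S25.TwoTermTwist

/-!
# Euler characteristics (indices) of linear maps over a field
-/

open Polynomial TensorProduct Module

namespace Fermat.Agent.S25c

section Index

variable {K : Type*} [Field K]
variable {M : Type*} [AddCommGroup M] [Module K M]
variable {N : Type*} [AddCommGroup N] [Module K N]

/-- The index (Euler characteristic) of a linear map. -/
noncomputable def chi (f : M →ₗ[K] N) : ℤ :=
  (finrank K (LinearMap.ker f) : ℤ) - (finrank K (N ⧸ LinearMap.range f) : ℤ)

/-- Finite-dimensional kernel and cokernel. -/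
structure IsFred (f : M →ₗ[K] N) : Prop where
  ker : Module.Finite K (LinearMap.ker f)
  coker : Module.Finite K (N ⧸ LinearMap.range f)

/-- The index of the restriction to a subspace of finite codimension. -/
theorem chi_domRestrict (f : M →ₗ[K] N) (hf : IsFred f) (P : Submodule K M)
    [Module.Finite K (M ⧸ P)] :
    IsFred (f.domRestrict P) ∧
      chi (f.domRestrict P) = chi f - finrank K (M ⧸ P) := by
  have := hf.ker
  have := hf.coker
  let g := f.domRestrict P
  -- the three maps
  let A : LinearMap.ker f →ₗ[K] M ⧸ P := P.mkQ ∘ₗ (LinearMap.ker f).subtype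
  let C : M ⧸ P →ₗ[K] N ⧸ LinearMap.range g := P.mapQ (LinearMap.range g) f (by
    intro x hx
    exact ⟨⟨x, hx⟩, rfl⟩)
  have hle : LinearMap.range g ≤ (LinearMap.range f).comap LinearMap.id := by
    rintro _ ⟨x, rfl⟩
    exact ⟨x, rfl⟩
  let D : N ⧸ LinearMap.range g →ₗ[K] N ⧸ LinearMap.range f :=
    (LinearMap.range g).mapQ (LinearMap.range f) LinearMap.id hle
  have hAC : LinearMap.range A = LinearMap.ker C := by
    apply le_antisymm
    · rintro _ ⟨x, rfl⟩
      rw [LinearMap.mem_ker]
      change Submodule.Quotient.mk (f x) = 0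
      rw [LinearMap.mem_ker.mp x.2, Submodule.Quotient.mk_zero]
    · intro y hy
      obtain ⟨m, rfl⟩ := P.mkQ_surjective y
      have h1 : f m ∈ LinearMap.range g := by
        have : (Submodule.Quotient.mk (f m) : N ⧸ LinearMap.range g) = 0 := hy
        rwa [Submodule.Quotient.mk_eq_zero] at this
      obtain ⟨p, hp⟩ := h1
      have h2 : m - p ∈ LinearMap.ker f := by
        rw [LinearMap.mem_ker, map_sub, sub_eq_zero]
        exact hp.symm
      refine ⟨⟨m - p, h2⟩, ?_⟩
      change (Submodule.Quotient.mk (m - p) : M ⧸ P) = Submodule.Quotient.mk m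
      rw [Submodule.Quotient.eq]
      simp
  have hCD : LinearMap.range C = LinearMap.ker D := by
    apply le_antisymm
    · rintro _ ⟨y, rfl⟩
      obtain ⟨m, rfl⟩ := P.mkQ_surjective y
      rw [LinearMap.mem_ker]
      change (Submodule.Quotient.mk (f m) : N ⧸ LinearMap.range f) = 0
      rw [Submodule.Quotient.mk_eq_zero]
      exact ⟨m, rfl⟩
    · intro y hy
      obtain ⟨n, rfl⟩ := (LinearMap.range g).mkQ_surjective y
      have h1 : n ∈ LinearMap.range f := by
        have : (Submodule.Quotient.mk n : N ⧸ LinearMap.range f) = 0 := hy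
        rwa [Submodule.Quotient.mk_eq_zero] at this
      obtain ⟨m, rfl⟩ := h1
      exact ⟨P.mkQ m, rfl⟩
  have hD : Function.Surjective D := by
    intro y
    obtain ⟨n, rfl⟩ := (LinearMap.range f).mkQ_surjective y
    exact ⟨(LinearMap.range g).mkQ n, rfl⟩
  let e : LinearMap.ker g ≃ₗ[K] LinearMap.ker A :=
    { toFun := fun x => ⟨⟨x.1.1, x.2⟩, by
        rw [LinearMap.mem_ker]
        change (Submodule.Quotient.mk (x.1.1) : M ⧸ P) = 0
        rw [Submodule.Quotient.mk_eq_zero]
        exact x.1.2⟩
      map_add' := fun _ _ => rfl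
      map_smul' := fun _ _ => rfl
      invFun := fun x => ⟨⟨x.1.1, by
        have : (Submodule.Quotient.mk (x.1.1) : M ⧸ P) = 0 := x.2
        rwa [Submodule.Quotient.mk_eq_zero] at this⟩, x.1.2⟩
      left_inv := fun _ => rfl
      right_inv := fun _ => rfl }
  have hfinker : Module.Finite K (LinearMap.ker g) := Module.Finite.equiv e.symm
  have hfinC : Module.Finite K (LinearMap.range C) := inferInstance
  have hfinkerD : Module.Finite K (LinearMap.ker D) := hCD ▸ hfinC
  have hfincoker : Module.Finite K (N ⧸ LinearMap.range g) := by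
    have hfg : (LinearMap.ker D).FG := Module.Finite.iff_fg.mp hfinkerD
    have hfg2 : (LinearMap.range D).FG := by
      rw [LinearMap.range_eq_top.mpr hD]
      exact Module.Finite.fg_top
    have h3 : (⊤ : Submodule K (N ⧸ LinearMap.range g)).FG := by
      refine Submodule.fg_of_fg_map_of_fg_inf_ker D ?_ ?_
      · rw [Submodule.map_top]; exact hfg2
      · rw [top_inf_eq]; exact hfg
    exact ⟨h3⟩
  refine ⟨⟨hfinker, hfincoker⟩, ?_⟩
  have e1 := LinearMap.finrank_range_add_finrank_ker A
  have e2 := LinearMap.finrank_range_add_finrank_ker C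
  have e3 := LinearMap.finrank_range_add_finrank_ker D
  have e4 : finrank K (LinearMap.range D) = finrank K (N ⧸ LinearMap.range f) := by
    rw [LinearMap.range_eq_top.mpr hD, finrank_top]
  have e5 : finrank K (LinearMap.ker g) = finrank K (LinearMap.ker A) := e.finrank_eq
  rw [hAC] at e1
  rw [hCD] at e2
  change (finrank K (LinearMap.ker g) : ℤ) - (finrank K (N ⧸ LinearMap.range g) : ℤ) = _
  unfold chi
  omega

/-- Invariance of the index under isomorphism. -/
theorem chi_congr {M' N' : Type*} [AddCommGroup M'] [Module K M'] [AddCommGroup N'] [Module K N']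
    (f : M →ₗ[K] N) (f' : M' →ₗ[K] N') (e : M ≃ₗ[K] M') (e' : N ≃ₗ[K] N')
    (h : f' ∘ₗ e.toLinearMap = e'.toLinearMap ∘ₗ f) :
    chi f' = chi f ∧ (IsFred f → IsFred f') := by
  have hk : LinearMap.ker f' = (LinearMap.ker f).map e.toLinearMap := by
    ext x
    constructor
    · intro hx
      refine ⟨e.symm x, ?_, e.apply_symm_apply x⟩
      change f (e.symm x) = 0
      apply e'.injective
      have := LinearMap.congr_fun h (e.symm x)
      simp only [LinearMap.coe_comp, LinearEquiv.coe_coe, Function.comp_apply,
        LinearEquiv.apply_symm_apply] at this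
      rw [← this, map_zero]
      exact hx
    · rintro ⟨y, hy, rfl⟩
      have := LinearMap.congr_fun h y
      simp only [LinearMap.coe_comp, LinearEquiv.coe_coe, Function.comp_apply] at this
      rw [LinearMap.mem_ker, LinearEquiv.coe_coe, this, LinearMap.mem_ker.mp hy, map_zero]
  have hr : (LinearMap.range f).map e'.toLinearMap = LinearMap.range f' := by
    rw [← LinearMap.range_comp, ← h, LinearMap.range_comp, LinearEquiv.range, Submodule.map_top]
  let ek : LinearMap.ker f ≃ₗ[K] LinearMap.ker f' :=
    (e.submoduleMap (LinearMap.ker f)).trans (LinearEquiv.ofEq _ _ hk.symm)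
  let er : (N ⧸ LinearMap.range f) ≃ₗ[K] (N' ⧸ LinearMap.range f') :=
    Submodule.Quotient.equiv _ _ e' hr
  constructor
  · unfold chi
    rw [ek.finrank_eq, er.finrank_eq]
  · intro hf
    have := hf.ker
    have := hf.coker
    exact ⟨Module.Finite.equiv ek, Module.Finite.equiv er⟩

/-- The index of the composition with an injection of finite codimension. -/
theorem chi_comp_injective {P : Type*} [AddCommGroup P] [Module K P]
    (f : M →ₗ[K] N) (hf : IsFred f) (g : P →ₗ[K] M) (hg : Function.Injective g)
    [Module.Finite K (M ⧸ LinearMap.range g)] :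
    IsFred (f ∘ₗ g) ∧ chi (f ∘ₗ g) = chi f - finrank K (M ⧸ LinearMap.range g) := by
  obtain ⟨h1, h2⟩ := chi_domRestrict f hf (LinearMap.range g)
  have := chi_congr (f.domRestrict (LinearMap.range g)) (f ∘ₗ g)
    (LinearEquiv.ofInjective g hg).symm (LinearEquiv.refl K N) (by
      ext x
      obtain ⟨_, y, rfl⟩ := x
      simp only [LinearMap.coe_comp, LinearEquiv.coe_coe, Function.comp_apply,
        LinearEquiv.refl_apply, LinearMap.domRestrict_apply]
      congr 1
      have : (LinearEquiv.ofInjective g hg).symm ⟨g y, ⟨y, rfl⟩⟩ = y := by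
        rw [LinearEquiv.symm_apply_eq]
        rfl
      rw [this])
  exact ⟨this.2 h1, this.1.trans h2⟩

end Index

section Chi

variable {B : Type*} [CommRing B]
variable {E : Type*} [AddCommGroup E] [Module B E] [Module B[X] E] [IsScalarTower B B[X] E]
variable {E' : Type*} [AddCommGroup E'] [Module B E'] [Module B[X] E'] [IsScalarTower B B[X] E']
variable {E'' : Type*} [AddCommGroup E''] [Module B E'']
variable {T : E'' ≃ₗ[B] E''} {i : E →ₗ[B] E''} {j : E' →ₗ[B] E''}

/-- Multiplication by `X` as a `B`-linear map. -/
noncomputable def mulX (B : Type*) [CommRing B] (E : Type*) [AddCommGroup E] [Module B E]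
    [Module B[X] E] [IsScalarTower B B[X] E] : E →ₗ[B] E :=
  (LinearMap.lsmul B[X] E X).restrictScalars B

lemma mulX_apply (e : E) : mulX B E e = (X : B[X]) • e := rfl

lemma mulX_pow_apply (n : ℕ) (e : E) : (mulX B E ^ n) e = (X : B[X]) ^ n • e := by
  induction n generalizing e with
  | zero => simp
  | succ n ih => rw [pow_succ, Module.End.mul_apply, ih, mulX_apply, pow_succ, mul_smul]

namespace IsPair

omit [IsScalarTower B B[X] E] in
/-- Relation between consecutive twists. -/
theorem δ_twist (h : IsPair T i j) (m : ℤ) :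
    δ i ((T ^ m).toLinearMap ∘ₗ j) =
      δ i ((T ^ (m + 1)).toLinearMap ∘ₗ j) ∘ₗ (LinearMap.id.prodMap (mulX B E')) := by
  apply LinearMap.ext
  rintro ⟨a, b⟩
  simp only [δ, LinearMap.coprod_apply, LinearMap.neg_apply, LinearMap.coe_comp,
    LinearEquiv.coe_coe, Function.comp_apply, LinearMap.prodMap_apply, LinearMap.id_apply,
    mulX_apply, h.hj]
  rw [← LinearEquiv.mul_apply, zpow_add_one, mul_assoc, mul_inv_cancel, mul_one]

end IsPair


namespace IsPair

omit [IsScalarTower B B[X] E] in
theorem δ_twist_pow (h : IsPair T i j) (m : ℕ) :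
    δ i j = δ i ((T ^ m).toLinearMap ∘ₗ j) ∘ₗ (LinearMap.id.prodMap (mulX B E' ^ m)) := by
  apply LinearMap.ext
  rintro ⟨a, b⟩
  simp only [δ, LinearMap.coprod_apply, LinearMap.neg_apply, LinearMap.coe_comp,
    LinearEquiv.coe_coe, Function.comp_apply, LinearMap.prodMap_apply, LinearMap.id_apply,
    mulX_pow_apply, i_X_pow_smul h.hj]
  rw [← LinearEquiv.mul_apply, inv_pow, mul_inv_cancel]
  rfl

/-- Over a Noetherian ring: finiteness of `H⁰`. -/
theorem finite_ker (h : IsPair T i j) [IsNoetherianRing B]
    [Module.Finite B[X] E] [Module.Finite B[X] E'] (hY : Function.Injective (mulX B E')) :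
    Module.Finite B (LinearMap.ker (δ i j)) := by
  have : Module.FinitePresentation B[X] E := Module.finitePresentation_of_finite B[X] E
  obtain ⟨m₀, hm₀⟩ := h.exists_twist_surjective
  let m := m₀.toNat
  have hm : Function.Surjective (δ i ((T ^ m).toLinearMap ∘ₗ j)) := by
    have := hm₀ m (by omega)
    rwa [zpow_natCast] at this
  have h2 : IsPair T i ((T ^ m).toLinearMap ∘ₗ j) := by
    have := h.twist m
    rwa [zpow_natCast] at this
  have h3 := h2.finite_ker_of_surjective hm
  let g : E × E' →ₗ[B] E × E' := LinearMap.id.prodMap (mulX B E' ^ m)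
  have hgi : Function.Injective g := by
    rw [LinearMap.coe_prodMap]
    apply Function.Injective.prodMap Function.injective_id
    rw [Module.End.coe_pow]
    exact Function.Injective.iterate hY m
  let φ : LinearMap.ker (δ i j) →ₗ[B] LinearMap.ker (δ i ((T ^ m).toLinearMap ∘ₗ j)) :=
    LinearMap.restrict g (fun x hx => by
      rw [LinearMap.mem_ker] at hx ⊢
      rw [← LinearMap.comp_apply, ← h.δ_twist_pow m, hx])
  have hφ : Function.Injective φ := by
    intro x y hxy
    apply Subtype.ext
    apply hgi
    exact congrArg Subtype.val hxy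
  exact Module.Finite.of_injective φ hφ

end IsPair

/-- Over a field: finiteness of the cohomology of a pair. -/
theorem IsPair.isFred {K : Type*} [Field K]
    {E : Type*} [AddCommGroup E] [Module K E] [Module K[X] E] [IsScalarTower K K[X] E]
    {E' : Type*} [AddCommGroup E'] [Module K E'] [Module K[X] E'] [IsScalarTower K K[X] E']
    {E'' : Type*} [AddCommGroup E''] [Module K E'']
    {T : E'' ≃ₗ[K] E''} {i : E →ₗ[K] E''} {j : E' →ₗ[K] E''} (h : IsPair T i j)
    [Module.Finite K[X] E] [Module.Finite K[X] E'] (hY : Function.Injective (mulX K E')) :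
    IsFred (δ i j) :=
  ⟨h.finite_ker hY, h.finite_coker⟩


/-- `E'/X E'` is finite over `B`. -/
theorem finite_quotient_mulX (B : Type*) [CommRing B] (E : Type*) [AddCommGroup E] [Module B E]
    [Module B[X] E] [IsScalarTower B B[X] E] [Module.Finite B[X] E] :
    Module.Finite B (E ⧸ LinearMap.range (mulX B E)) := by
  classical
  obtain ⟨n, u, hu⟩ := Module.Finite.exists_fin (R := B[X]) (M := E)
  refine ⟨⟨Finset.univ.image (fun s => (LinearMap.range (mulX B E)).mkQ (u s)), ?_⟩⟩
  rw [eq_top_iff]
  rintro x -
  obtain ⟨e, rfl⟩ := (LinearMap.range (mulX B E)).mkQ_surjective x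
  have he : e ∈ Submodule.span B[X] (Set.range u) := by rw [hu]; trivial
  have hX : ∀ e : E, (LinearMap.range (mulX B E)).mkQ ((X : B[X]) • e) = 0 := by
    intro e
    rw [Submodule.mkQ_apply, Submodule.Quotient.mk_eq_zero]
    exact ⟨e, rfl⟩
  induction he using Submodule.span_induction with
  | mem x hx =>
    obtain ⟨s, rfl⟩ := hx
    apply Submodule.subset_span
    simp
  | zero => rw [map_zero]; exact Submodule.zero_mem _
  | add x y _ _ hx hy => rw [map_add]; exact Submodule.add_mem _ hx hy
  | smul p x _ hx =>
    induction p using Polynomial.induction_on' with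
    | add p q hp hq => rw [add_smul, map_add]; exact Submodule.add_mem _ hp hq
    | monomial n b =>
      have h1 : (Polynomial.monomial n b : B[X]) • x = b • ((X : B[X]) ^ n • x) := by
        rw [← Polynomial.smul_X_eq_monomial, smul_assoc]
      rw [h1, map_smul]
      apply Submodule.smul_mem
      cases n with
      | zero => simpa using hx
      | succ n =>
        rw [pow_succ', mul_smul, hX]
        exact Submodule.zero_mem _

/-- Euler characteristic of a twist, over a field. -/
theorem IsPair.chi_twist_succ {K : Type*} [Field K]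
    {E : Type*} [AddCommGroup E] [Module K E] [Module K[X] E] [IsScalarTower K K[X] E]
    {E' : Type*} [AddCommGroup E'] [Module K E'] [Module K[X] E'] [IsScalarTower K K[X] E']
    {E'' : Type*} [AddCommGroup E''] [Module K E'']
    {T : E'' ≃ₗ[K] E''} {i : E →ₗ[K] E''} {j : E' →ₗ[K] E''} (h : IsPair T i j)
    [Module.Finite K[X] E] [Module.Finite K[X] E'] (hY : Function.Injective (mulX K E'))
    (m : ℤ) :
    chi (δ i ((T ^ (m + 1)).toLinearMap ∘ₗ j)) = chi (δ i ((T ^ m).toLinearMap ∘ₗ j)) +
      finrank K (E' ⧸ LinearMap.range (mulX K E')) := by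
  let g : E × E' →ₗ[K] E × E' := LinearMap.id.prodMap (mulX K E')
  let π : E × E' →ₗ[K] (E' ⧸ LinearMap.range (mulX K E')) :=
    (LinearMap.range (mulX K E')).mkQ ∘ₗ LinearMap.snd K E E'
  have hπ : Function.Surjective π := by
    rw [LinearMap.coe_comp]
    exact (Submodule.mkQ_surjective _).comp Prod.snd_surjective
  have hg : Function.Injective g := by
    rw [LinearMap.coe_prodMap]
    exact Function.Injective.prodMap Function.injective_id hY
  have hex : LinearMap.range g = LinearMap.ker π := by
    ext ⟨a, b⟩
    constructor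
    · rintro ⟨⟨a', b'⟩, hab⟩
      have hb : mulX K E' b' = b := congrArg Prod.snd hab
      change (Submodule.Quotient.mk b : E' ⧸ LinearMap.range (mulX K E')) = 0
      rw [Submodule.Quotient.mk_eq_zero]
      exact ⟨b', hb⟩
    · intro hb
      have : b ∈ LinearMap.range (mulX K E') := by
        have : (Submodule.Quotient.mk b : E' ⧸ LinearMap.range (mulX K E')) = 0 := hb
        rwa [Submodule.Quotient.mk_eq_zero] at this
      obtain ⟨c, rfl⟩ := this
      exact ⟨(a, c), rfl⟩
  let e := (Submodule.quotEquivOfEq _ _ hex).trans (LinearMap.quotKerEquivOfSurjective π hπ)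
  have := finite_quotient_mulX K E'
  have hfin : Module.Finite K ((E × E') ⧸ LinearMap.range g) := Module.Finite.equiv e.symm
  have h1 := (h.twist (m + 1)).isFred hY
  have h2 := chi_comp_injective _ h1 g hg
  rw [h.δ_twist m, h2.2, e.finrank_eq]
  ring

/-- finrank of base change of a finite flat module to a field. -/
theorem finrank_baseChange_field {B : Type*} [CommRing B] (M : Type*) [AddCommGroup M] [Module B M]
    [Module.Finite B M] [Module.Flat B M] (K : Type*) [Field K] [Algebra B K] :
    finrank K (K ⊗[B] M) =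
      rankAtStalk (R := B) M (PrimeSpectrum.comap (algebraMap B K) ⊥) := by
  have h1 := rankAtStalk_baseChange (R := B) (M := M) (S := K) ⊥
  rw [← h1, rankAtStalk_eq_finrank_of_free]
  rfl

namespace IsPair

/-- The Euler characteristic of the fibres of a pair is locally constant. -/
theorem exists_chi (h : IsPair T i j) [Module.FinitePresentation B[X] E]
    [Module.Finite B[X] E'] [Module.Projective B E] [Module.Projective B E']
    [Module.Projective B E''] (hY : Function.Injective (mulX B E'))
    [Module.Projective B (E' ⧸ LinearMap.range (mulX B E'))] :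
    ∃ c : PrimeSpectrum B → ℤ, IsLocallyConstant c ∧
      ∀ (K : Type*) [Field K] [Algebra B K], IsFred ((δ i j).baseChange K) ∧
        chi ((δ i j).baseChange K) = c (PrimeSpectrum.comap (algebraMap B K) ⊥) := by
  obtain ⟨m₀, hm₀⟩ := h.exists_twist_surjective
  let m := m₀.toNat
  let Q := E' ⧸ LinearMap.range (mulX B E')
  have hQ1 : Module.Finite B Q := finite_quotient_mulX B E'
  have hm : Function.Surjective (δ i ((T ^ m).toLinearMap ∘ₗ j)) := by
    have := hm₀ m (by omega)
    rwa [zpow_natCast] at this
  have h2 : IsPair T i ((T ^ m).toLinearMap ∘ₗ j) := by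
    have := h.twist m
    rwa [zpow_natCast] at this
  let P := LinearMap.ker (δ i ((T ^ m).toLinearMap ∘ₗ j))
  have hP1 : Module.Finite B P := h2.finite_ker_of_surjective hm
  have hP2 : Module.Projective B P := projective_ker_of_surjective _ hm
  have hP3 : Module.FinitePresentation B P := Module.finitePresentation_of_projective B P
  have hQ3 : Module.FinitePresentation B Q := Module.finitePresentation_of_projective B Q
  refine ⟨fun p => (rankAtStalk (R := B) P p : ℤ) - m * (rankAtStalk (R := B) Q p : ℤ), ?_, ?_⟩
  · have l1 := isLocallyConstant_rankAtStalk (R := B) (M := P)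
    have l2 := isLocallyConstant_rankAtStalk (R := B) (M := Q)
    exact (l1.comp (fun n : ℕ => (n : ℤ))).sub
      ((IsLocallyConstant.const (m : ℤ)).mul (l2.comp (fun n : ℕ => (n : ℤ))))
  · intro K _ _
    -- the top twist
    have hsK : Function.Surjective ((δ i ((T ^ m).toLinearMap ∘ₗ j)).baseChange K) :=
      LinearMap.lTensor_surjective K hm
    have hbc := ker_baseChange_of_surjective (δ i ((T ^ m).toLinearMap ∘ₗ j)) hm K
    let eP : K ⊗[B] P ≃ₗ[K] LinearMap.ker ((δ i ((T ^ m).toLinearMap ∘ₗ j)).baseChange K) :=
      (LinearEquiv.ofInjective _ hbc.1).trans (LinearEquiv.ofEq _ _ hbc.2)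
    have hfK : Module.Finite K (K ⊗[B] P) := inferInstance
    have hcokerK : Subsingleton ((K ⊗[B] E'') ⧸
        LinearMap.range ((δ i ((T ^ m).toLinearMap ∘ₗ j)).baseChange K)) := by
      rw [LinearMap.range_eq_top.mpr hsK]
      exact Submodule.Quotient.subsingleton_iff.mpr rfl
    have hFred : IsFred ((δ i ((T ^ m).toLinearMap ∘ₗ j)).baseChange K) :=
      ⟨Module.Finite.equiv eP, inferInstance⟩
    have hchi : chi ((δ i ((T ^ m).toLinearMap ∘ₗ j)).baseChange K) =
        rankAtStalk (R := B) P (PrimeSpectrum.comap (algebraMap B K) ⊥) := by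
      unfold chi
      rw [← eP.finrank_eq, finrank_baseChange_field, finrank_zero_of_subsingleton]
      simp
    -- the inclusion
    let g : E × E' →ₗ[B] E × E' := LinearMap.id.prodMap (mulX B E')
    let π : E × E' →ₗ[B] Q := (LinearMap.range (mulX B E')).mkQ ∘ₗ LinearMap.snd B E E'
    have hπ : Function.Surjective π := by
      rw [LinearMap.coe_comp]
      exact (Submodule.mkQ_surjective _).comp Prod.snd_surjective
    have hg : Function.Injective g := by
      rw [LinearMap.coe_prodMap]
      exact Function.Injective.prodMap Function.injective_id hY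
    have hex : Function.Exact g π := by
      rintro ⟨a, b⟩
      constructor
      · intro hb
        have : b ∈ LinearMap.range (mulX B E') := by
          have : (Submodule.Quotient.mk b : Q) = 0 := hb
          rwa [Submodule.Quotient.mk_eq_zero] at this
        obtain ⟨c, rfl⟩ := this
        exact ⟨(a, c), rfl⟩
      · rintro ⟨⟨a', b'⟩, hab⟩
        have hb : mulX B E' b' = b := congrArg Prod.snd hab
        change (Submodule.Quotient.mk b : Q) = 0
        rw [Submodule.Quotient.mk_eq_zero]
        exact ⟨b', hb⟩
    have hgK : Function.Injective (g.baseChange K) :=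
      LinearMap.lTensor_injective_of_exact_of_flat π hπ g hg hex K
    have hπK : Function.Surjective (π.baseChange K) := LinearMap.lTensor_surjective K hπ
    have hexK : LinearMap.range (g.baseChange K) = LinearMap.ker (π.baseChange K) := by
      ext x
      exact ((lTensor_exact K hex hπ) x).symm
    let eQ : ((K ⊗[B] (E × E')) ⧸ LinearMap.range (g.baseChange K)) ≃ₗ[K] K ⊗[B] Q :=
      (Submodule.quotEquivOfEq _ _ hexK).trans
        (LinearMap.quotKerEquivOfSurjective _ hπK)
    have hfin : Module.Finite K ((K ⊗[B] (E × E')) ⧸ LinearMap.range (g.baseChange K)) :=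
      Module.Finite.equiv eQ.symm
    have key : ∀ n : ℕ, n ≤ m → IsFred ((δ i ((T ^ n).toLinearMap ∘ₗ j)).baseChange K) ∧
        chi ((δ i ((T ^ n).toLinearMap ∘ₗ j)).baseChange K) =
          (rankAtStalk (R := B) P (PrimeSpectrum.comap (algebraMap B K) ⊥) : ℤ) -
            (m - n : ℤ) * (rankAtStalk (R := B) Q (PrimeSpectrum.comap (algebraMap B K) ⊥) : ℤ) := by
      intro n hn
      induction hn using Nat.decreasingInduction with
      | self =>
        refine ⟨hFred, ?_⟩
        rw [hchi]
        simp
      | of_succ n hn ih =>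
        have ht := h.δ_twist (n : ℤ)
        have ht' : (δ i ((T ^ n).toLinearMap ∘ₗ j)).baseChange K =
            (δ i ((T ^ (n + 1)).toLinearMap ∘ₗ j)).baseChange K ∘ₗ (g.baseChange K) := by
          rw [← LinearMap.baseChange_comp]
          congr 1
        obtain ⟨i1, i2⟩ := ih
        have := chi_comp_injective _ i1 (g.baseChange K) hgK
        rw [ht']
        refine ⟨this.1, ?_⟩
        rw [this.2, i2, eQ.finrank_eq, finrank_baseChange_field]
        push_cast
        ring
    have := key 0 (Nat.zero_le _)
    have h0 : (T ^ 0).toLinearMap ∘ₗ j = j := by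
      ext x
      simp
    rw [h0] at this
    refine ⟨this.1, ?_⟩
    rw [this.2]
    push_cast
    ring

end IsPair

end Chi

end Fermat.Agent.S25c
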