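import Mathlib

/-!
# Invertibility of ideals with flat quotient on relative curves (S25, WP5)
-/

set_option autoImplicit false
set_option linter.style.haveILetI false

open TensorProduct Polynomial nonZeroDivisors

namespace Fermat.Agent.S25c

section Colon

variable {S : Type*} [CommRing S]

theorem invertible_of_mul_eq_span_aux (A : Type*) [CommRing A] [Algebra S A]
    [IsLocalization S⁰ A] {I J : Ideal S} {g : S} (hg : g ∈ S⁰)
    (h : I * J = Ideal.span {g}) : Module.Invertible S I := by
  have hinj : Function.Injective (algebraMap S A) := IsLocalization.injective A le_rfl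
  have hf : FaithfulSMul S A := (faithfulSMul_iff_algebraMap_injective S A).mpr hinj
  have hg' : IsUnit (algebraMap S A g) := IsLocalization.map_units A ⟨g, hg⟩
  obtain ⟨v, hv⟩ := hg'.exists_left_inv
  let I' : Submodule S A := Submodule.map (Algebra.linearMap S A) I
  let J' : Submodule S A := Submodule.map (Algebra.linearMap S A) J
  let V : Submodule S A := Submodule.span S {v}
  have key : I' * (J' * V) = 1 := by
    have e1 : I' * J' = Submodule.map (Algebra.linearMap S A) (I * J : Ideal S) := by
      have := Submodule.map_mul (R := S) I J (Algebra.ofId S A)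
      exact this.symm
    rw [← mul_assoc, e1, h]
    have e2 : Submodule.map (Algebra.linearMap S A) (Ideal.span {g}) =
        Submodule.span S {algebraMap S A g} := by
      rw [Ideal.span, Submodule.map_span, Set.image_singleton, Algebra.linearMap_apply]
    rw [e2, Submodule.span_mul_span, Set.singleton_mul_singleton, mul_comm, hv,
      Submodule.one_eq_span]
  let u : (Submodule S A)ˣ := ⟨I', J' * V, key, by rw [mul_comm]; exact key⟩
  have : Module.Invertible S (u : Submodule S A) := .left (Submodule.tensorInvEquiv u)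
  exact Module.Invertible.congr
    (Submodule.equivMapOfInjective (Algebra.linearMap S A) hinj I).symm

/-- an ideal `I` with `I * J = (g)`, `g` a nonzerodivisor, is invertible -/
theorem invertible_of_mul_eq_span {I J : Ideal S} {g : S} (hg : g ∈ S⁰)
    (h : I * J = Ideal.span {g}) : Module.Invertible S I :=
  invertible_of_mul_eq_span_aux (Localization S⁰) hg h

theorem mul_colon_eq {I : Ideal S} {g : S} (hgI : g ∈ I)
    (H : ∀ m : Ideal S, m.IsMaximal → ∃ h ∈ I, ∃ t, t ∉ m ∧ ∀ x ∈ I, t * x ∈ Ideal.span {h}) :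
    ∃ J : Ideal S, I * J = Ideal.span {g} := by
  let J : Ideal S :=
    { carrier := {s | ∀ x ∈ I, s * x ∈ Ideal.span {g}}
      add_mem' := fun {a b} ha hb x hx => by
        rw [add_mul]; exact add_mem (ha x hx) (hb x hx)
      zero_mem' := fun x _ => by rw [zero_mul]; exact zero_mem _
      smul_mem' := fun c a ha x hx => by
        rw [smul_eq_mul, mul_assoc]; exact Ideal.mul_mem_left _ _ (ha x hx) }
  refine ⟨J, le_antisymm ?_ ?_⟩
  · rw [Ideal.mul_le]
    intro r hr s hs
    rw [mul_comm]
    exact hs r hr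
  · rw [Ideal.span_singleton_le_iff_mem]
    -- the ideal of `s` with `s * g ∈ I * J` is everything
    let T : Ideal S :=
      { carrier := {s | s * g ∈ I * J}
        add_mem' := fun {a b} ha hb => by
          change (a + b) * g ∈ I * J
          rw [add_mul]; exact add_mem ha hb
        zero_mem' := by change 0 * g ∈ I * J; rw [zero_mul]; exact zero_mem _
        smul_mem' := fun c a ha => by
          change (c • a) * g ∈ I * J
          rw [smul_eq_mul, mul_assoc]; exact Ideal.mul_mem_left _ _ ha }
    have hT : T = ⊤ := by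
      by_contra hne
      obtain ⟨m, hm, hTm⟩ := Ideal.exists_le_maximal T hne
      obtain ⟨h, hh, t, ht, hx⟩ := H m hm
      obtain ⟨c, hc⟩ := Ideal.mem_span_singleton'.mp (hx g hgI)
      -- `c * h = t * g`
      have hcJ : t * c ∈ J := by
        intro x hxI
        obtain ⟨y, hy⟩ := Ideal.mem_span_singleton'.mp (hx x hxI)
        -- `y * h = t * x`
        rw [Ideal.mem_span_singleton']
        refine ⟨t * y, ?_⟩
        calc t * y * g = y * (t * g) := by ring
          _ = c * (y * h) := by rw [← hc]; ring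
          _ = t * c * x := by rw [hy]; ring
      have : t * t ∈ T := by
        change t * t * g ∈ I * J
        have : t * t * g = h * (t * c) := by
          calc t * t * g = t * (t * g) := by ring
            _ = h * (t * c) := by rw [← hc]; ring
        rw [this]
        exact Ideal.mul_mem_mul hh hcJ
      have h2 := hTm this
      rcases hm.isPrime.mem_or_mem h2 with h3 | h3 <;> exact ht h3
    have : (1 : S) ∈ T := by rw [hT]; trivial
    have h2 : (1 : S) * g ∈ I * J := this
    rwa [one_mul] at h2

/-- criterion: `I` f.g., containing a nonzerodivisor, and `(S/m) ⊗ I` generated by one element for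
every maximal ideal. -/
theorem invertible_of_fg {I : Ideal S} (hI : I.FG) {g : S} (hg : g ∈ S⁰) (hgI : g ∈ I)
    (H : ∀ m : Ideal S, m.IsMaximal → ∃ h ∈ I, I ≤ Ideal.span {h} ⊔ m * I) :
    Module.Invertible S I := by
  obtain ⟨J, hJ⟩ := mul_colon_eq hgI (by
    intro m hm
    obtain ⟨h, hh, hle⟩ := H m hm
    refine ⟨h, hh, ?_⟩
    -- Nakayama on `I / (h)`
    let N : Submodule S (S ⧸ Ideal.span {h}) := Submodule.map (Ideal.span {h}).mkQ I
    have hN : N.FG := Submodule.FG.map _ hI
    have hle' : N ≤ m • N := by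
      have := Submodule.map_mono (f := (Ideal.span {h}).mkQ) hle
      refine this.trans ?_
      rw [Submodule.map_sup]
      apply sup_le
      · rw [Submodule.map_le_iff_le_comap]
        intro x hx
        rw [Submodule.mem_comap]
        have : (Ideal.span {h}).mkQ x = 0 := by
          rw [Submodule.mkQ_apply, Submodule.Quotient.mk_eq_zero]; exact hx
        rw [this]; exact zero_mem _
      · change Submodule.map (Ideal.span {h}).mkQ (m • I : Submodule S S) ≤ _
        rw [Submodule.map_smul'']
    obtain ⟨t, ht1, ht⟩ :=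
      Submodule.exists_sub_one_mem_and_smul_eq_zero_of_fg_of_le_smul m N hN hle'
    refine ⟨t, fun htm => ?_, fun x hx => ?_⟩
    · apply hm.ne_top
      rw [Ideal.eq_top_iff_one]
      have := sub_mem htm ht1
      simpa using this
    · have := ht _ (Submodule.mem_map_of_mem (f := (Ideal.span {h}).mkQ) hx)
      rw [← map_smul, Submodule.mkQ_apply, Submodule.Quotient.mk_eq_zero] at this
      simpa using this)
  exact invertible_of_mul_eq_span hg hJ

/-- if the fibre of `I` at `m` is one-dimensional then it is generated by one element of `I`. -/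
theorem exists_generator_mod {I m : Ideal S} (hm : m.IsMaximal)
    (h : Module.Invertible (S ⧸ m) ((S ⧸ m) ⊗[S] I)) :
    ∃ h ∈ I, I ≤ Ideal.span {h} ⊔ m * I := by
  letI : Field (S ⧸ m) := Ideal.Quotient.field m
  have hfree : Module.Free (S ⧸ m) ((S ⧸ m) ⊗[S] I) := inferInstance
  obtain ⟨e⟩ := (Module.Invertible.free_iff_linearEquiv (R := S ⧸ m)
    (M := (S ⧸ m) ⊗[S] I)).mp hfree
  obtain ⟨w, hw⟩ := TensorProduct.mk_surjective S (M := I) (S ⧸ m) Ideal.Quotient.mk_surjective
    (e.symm 1)
  refine ⟨w, w.2, fun x hx => ?_⟩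
  obtain ⟨c, hc⟩ := Ideal.Quotient.mk_surjective (e (1 ⊗ₜ ⟨x, hx⟩))
  have h1 : (1 : S ⧸ m) ⊗ₜ[S] (⟨x, hx⟩ : I) = 1 ⊗ₜ (c • w) := by
    apply e.injective
    rw [← hc]
    have h2 : (1 : S ⧸ m) ⊗ₜ[S] (c • w) = (Ideal.Quotient.mk m c) • e.symm 1 := by
      rw [← hw, TensorProduct.mk_apply, TensorProduct.smul_tmul', TensorProduct.tmul_smul,
        TensorProduct.smul_tmul']
      rfl
    rw [h2, map_smul, e.apply_symm_apply, smul_eq_mul, mul_one]
  have h3 := congrArg (quotTensorEquivQuotSMul I m) h1
  rw [quotTensorEquivQuotSMul_mk_one_tmul, quotTensorEquivQuotSMul_mk_one_tmul] at h3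
  rw [Submodule.Quotient.eq] at h3
  have h4 : x - c * w ∈ m * I := by
    have h5 := Submodule.mem_map_of_mem (f := I.subtype) h3
    rw [Submodule.map_smul'', Submodule.map_top, Submodule.range_subtype] at h5
    simpa using h5
  have h6 : x = c * w + (x - c * w) := by ring
  rw [h6]
  exact add_mem (Ideal.mem_sup_left (Ideal.mem_span_singleton'.mpr ⟨c, rfl⟩))
    (Ideal.mem_sup_right h4)

/-- nonzero ideals of Dedekind domains are invertible modules -/
theorem invertible_of_isDedekindDomain {D : Type*} [CommRing D] [IsDedekindDomain D]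
    {J : Ideal D} (hJ : J ≠ ⊥) : Module.Invertible D J := by
  obtain ⟨g, hg, hg0⟩ := Submodule.exists_mem_ne_zero_of_ne_bot hJ
  have hdvd : J ∣ Ideal.span {g} := Ideal.dvd_span_singleton.mpr hg
  obtain ⟨J', hJ'⟩ := hdvd
  exact invertible_of_mul_eq_span (mem_nonZeroDivisors_of_ne_zero hg0) hJ'.symm

end Colon

section Fibre

variable {R S : Type*} [CommRing R] [CommRing S] [Algebra R S]

set_option synthInstance.maxHeartbeats 200000 in
/-- injectivity of `(S ⊗[R] K) ⊗[S] I → (S ⊗[R] K) ⊗[S] S` if `S/I` is flat over `R`. -/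
theorem baseChange_subtype_injective (I : Ideal S) [Module.Flat R (S ⧸ I)] (K : Type*)
    [CommRing K] [Algebra R K] :
    Function.Injective (LinearMap.baseChange (S ⊗[R] K) I.subtype) := by
  have h1 : Function.Injective ((I.subtype.restrictScalars R).lTensor K) :=
    LinearMap.lTensor_injective_of_exact_of_flat (I.mkQ.restrictScalars R) I.mkQ_surjective
      (I.subtype.restrictScalars R) Subtype.val_injective
      (by
        have := LinearMap.exact_subtype_mkQ I
        exact this) K
  have h2 : Function.Injective ((I.subtype.restrictScalars R).rTensor K) :=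
    (LinearMap.lTensor_inj_iff_rTensor_inj K _).mp h1
  let eI : (S ⊗[R] K) ⊗[S] I ≃ₗ[S] I ⊗[R] K :=
    (TensorProduct.comm S (S ⊗[R] K) I) ≪≫ₗ
      TensorProduct.AlgebraTensorModule.cancelBaseChange R S S I K
  let eS : (S ⊗[R] K) ⊗[S] S ≃ₗ[S] S ⊗[R] K :=
    (TensorProduct.comm S (S ⊗[R] K) S) ≪≫ₗ
      TensorProduct.AlgebraTensorModule.cancelBaseChange R S S S K
  have h3 : ∀ z, eS (LinearMap.baseChange (S ⊗[R] K) I.subtype z) =
      (I.subtype.restrictScalars R).rTensor K (eI z) := by
    intro z
    induction z with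
    | zero => simp
    | add a b ha hb => rw [map_add, map_add, map_add, map_add, ha, hb]
    | tmul d i =>
      induction d with
      | zero => simp
      | add a b ha hb => rw [add_tmul, map_add, map_add, map_add, map_add, ha, hb]
      | tmul s κ =>
        simp [eI, eS]
  intro a b hab
  apply eI.injective
  apply h2
  rw [← h3, ← h3, hab]

/-- fibre at `K` of the ideal `I` is invertible -/
theorem invertible_fibre (I : Ideal S) [Module.Flat R (S ⧸ I)] (K : Type*)
    [CommRing K] [Algebra R K] [IsDedekindDomain (S ⊗[R] K)] {g : S} (hgI : g ∈ I)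
    (hg : (g ⊗ₜ 1 : S ⊗[R] K) ≠ 0) :
    Module.Invertible (S ⊗[R] K) ((S ⊗[R] K) ⊗[S] I) := by
  let f : (S ⊗[R] K) ⊗[S] I →ₗ[S ⊗[R] K] (S ⊗[R] K) :=
    (TensorProduct.AlgebraTensorModule.rid S (S ⊗[R] K) (S ⊗[R] K)).toLinearMap ∘ₗ
      LinearMap.baseChange (S ⊗[R] K) I.subtype
  have hf : Function.Injective f := by
    intro a b hab
    apply baseChange_subtype_injective (R := R) I K
    exact (TensorProduct.AlgebraTensorModule.rid S (S ⊗[R] K) (S ⊗[R] K)).injective hab
  have hne : LinearMap.range f ≠ ⊥ := by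
    intro h0
    apply hg
    have : f (1 ⊗ₜ ⟨g, hgI⟩) ∈ LinearMap.range f := ⟨_, rfl⟩
    rw [h0, Submodule.mem_bot] at this
    rw [← this]
    simp [f, Algebra.smul_def]
  have : Module.Invertible (S ⊗[R] K) (LinearMap.range f) :=
    invertible_of_isDedekindDomain (J := LinearMap.range f) hne
  exact Module.Invertible.congr (LinearEquiv.ofInjective f hf).symm

/-- fibral criterion of invertibility of an ideal -/
theorem invertible_of_fibre (I : Ideal S) [Module.Flat R (S ⧸ I)] (hI : I.FG) {g : S}
    (hg : g ∈ S⁰) (hgI : g ∈ I) (KK : Ideal S → Type*) [∀ m, CommRing (KK m)]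
    [∀ m, Algebra R (KK m)] (φ : ∀ m : Ideal S, m.IsMaximal → KK m →ₐ[R] S ⧸ m)
    (hD : ∀ m : Ideal S, m.IsMaximal → IsDedekindDomain (S ⊗[R] KK m))
    (hg0 : ∀ m : Ideal S, m.IsMaximal → (g ⊗ₜ 1 : S ⊗[R] KK m) ≠ 0) :
    Module.Invertible S I := by
  refine invertible_of_fg hI hg hgI fun m hm => exists_generator_mod hm ?_
  have := hD m hm
  have h1 := invertible_fibre (R := R) I (KK m) hgI (hg0 m hm)
  let ψ : S ⊗[R] KK m →ₐ[S] S ⧸ m :=
    Algebra.TensorProduct.lift (Algebra.ofId S (S ⧸ m)) (φ m hm) (fun _ _ => Commute.all _ _)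
  letI : Algebra (S ⊗[R] KK m) (S ⧸ m) := ψ.toRingHom.toAlgebra
  haveI : IsScalarTower S (S ⊗[R] KK m) (S ⧸ m) :=
    IsScalarTower.of_algebraMap_eq' ψ.comp_algebraMap.symm
  have h2 : Module.Invertible (S ⧸ m) ((S ⧸ m) ⊗[S ⊗[R] KK m] ((S ⊗[R] KK m) ⊗[S] I)) :=
    inferInstance
  exact Module.Invertible.congr
    (TensorProduct.AlgebraTensorModule.cancelBaseChange S (S ⊗[R] KK m) (S ⧸ m) (S ⧸ m) I)

end Fibre

section Curve

variable {k A R : Type*} [Field k] [CommRing A] [Algebra k A] [Algebra k[X] A]
  [IsScalarTower k k[X] A] [CommRing R] [Algebra k R]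

variable (A R) in
/-- `R[X] → R ⊗ A` -/
noncomputable def evX : R[X] →ₐ[R] R ⊗[k] A :=
  aeval ((1 : R) ⊗ₜ[k] algebraMap k[X] A X)

omit [IsScalarTower k k[X] A] in
theorem evX_apply (G : R[X]) :
    evX A R (k := k) G = aeval ((1 : R) ⊗ₜ[k] algebraMap k[X] A X) G := rfl

theorem evX_eq_map (G : R[X]) : evX A R (k := k) G =
    Algebra.TensorProduct.map (AlgHom.id R R) (IsScalarTower.toAlgHom k k[X] A)
      (polyEquivTensor' k R G) := by
  have : evX A R (k := k) = (Algebra.TensorProduct.map (AlgHom.id R R)
      (IsScalarTower.toAlgHom k k[X] A)).comp (polyEquivTensor' k R).toAlgHom := by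
    apply Polynomial.algHom_ext
    simp [evX]
  rw [this]; rfl

/-- a monic polynomial in a coordinate is a nonzerodivisor in `R ⊗ A`, if `A` is flat over
`k[X]`. -/
theorem evX_mem_nonZeroDivisors [Module.Flat k[X] A] {G : R[X]} (hG : G.Monic) :
    evX A R (k := k) G ∈ (R ⊗[k] A)⁰ := by
  let t : R ⊗[k] k[X] := polyEquivTensor' k R G
  let t' : k[X] ⊗[k] R := Algebra.TensorProduct.comm k R k[X] t
  have ht' : t' ∈ (k[X] ⊗[k] R)⁰ := by
    let e : R[X] ≃+* k[X] ⊗[k] R :=
      (polyEquivTensor' k R).toRingEquiv.trans (Algebra.TensorProduct.comm k R k[X]).toRingEquiv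
    have h1 : G ∈ (R[X])⁰ := hG.mem_nonZeroDivisors
    have h2 := MulEquivClass.map_nonZeroDivisors (M₀ := R[X]) (S := k[X] ⊗[k] R) e
    have h3 : e G ∈ (k[X] ⊗[k] R)⁰ := by
      rw [← h2]
      exact ⟨G, h1, rfl⟩
    exact h3
  -- multiplication by `t'` as a `k[X]`-linear map
  let L : k[X] ⊗[k] R →ₗ[k[X]] k[X] ⊗[k] R := LinearMap.mulLeft k[X] t'
  have hL : Function.Injective L := by
    intro a b hab
    exact (mul_cancel_left_mem_nonZeroDivisors ht').mp hab
  have hL' : Function.Injective (L.lTensor A) :=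
    Module.Flat.lTensor_preserves_injective_linearMap L hL
  let ψ : A ⊗[k[X]] (k[X] ⊗[k] R) ≃ₗ[A] A ⊗[k] R :=
    TensorProduct.AlgebraTensorModule.cancelBaseChange k k[X] A A R
  let μ : k[X] ⊗[k] R →ₐ[k] A ⊗[k] R :=
    Algebra.TensorProduct.map (IsScalarTower.toAlgHom k k[X] A) (AlgHom.id k R)
  have key : ∀ z, ψ (L.lTensor A z) = μ t' * ψ z := by
    have : ∀ (t'' : k[X] ⊗[k] R) (z : A ⊗[k[X]] (k[X] ⊗[k] R)),
        ψ ((LinearMap.mulLeft k[X] t'').lTensor A z) = μ t'' * ψ z := by
      intro t'' z
      induction z with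
      | zero => simp
      | add a b ha hb => rw [map_add, map_add, map_add, mul_add, ha, hb]
      | tmul a u =>
        rw [LinearMap.lTensor_tmul, LinearMap.mulLeft_apply]
        induction u with
        | zero => simp
        | add u v hu hv => rw [mul_add, tmul_add, tmul_add, map_add, map_add, mul_add, hu, hv]
        | tmul f r =>
          induction t'' with
          | zero => simp
          | add u v hu hv => rw [add_mul, tmul_add, map_add, map_add, add_mul, hu, hv]
          | tmul f' r' =>
            simp [ψ, μ, Algebra.smul_def, mul_left_comm, mul_comm]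
    exact this t'
  have h4 : μ t' ∈ (A ⊗[k] R)⁰ := by
    rw [mem_nonZeroDivisors_iff_right]
    intro z hz
    obtain ⟨y, rfl⟩ := ψ.surjective z
    rw [mul_comm, ← key] at hz
    have h5 : L.lTensor A y = 0 := ψ.injective (by rw [hz, map_zero])
    have h6 : y = 0 := hL' (by rw [h5, map_zero])
    rw [h6, map_zero]
  have h7 : evX A R (k := k) G = Algebra.TensorProduct.comm k A R (μ t') := by
    rw [evX_eq_map]
    change Algebra.TensorProduct.map (AlgHom.id R R) (IsScalarTower.toAlgHom k k[X] A) t =
      Algebra.TensorProduct.comm k A R (μ (Algebra.TensorProduct.comm k R k[X] t))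
    induction t with
    | zero => simp
    | add u v hu hv => rw [map_add, map_add, map_add, map_add, hu, hv]
    | tmul r f => simp [μ]
  rw [h7]
  have h8 := MulEquivClass.map_nonZeroDivisors (M₀ := A ⊗[k] R) (S := R ⊗[k] A)
    (Algebra.TensorProduct.comm k A R).toRingEquiv
  rw [← h8]
  exact ⟨μ t', h4, rfl⟩

omit [IsScalarTower k k[X] A] in
theorem map_evX {R' : Type*} [CommRing R'] [Algebra k R'] (ρ : R →ₐ[k] R') (G : R[X]) :
    Algebra.TensorProduct.map ρ (AlgHom.id k A) (evX A R (k := k) G) =
      evX A R' (k := k) (G.map ρ.toRingHom) := by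
  have : (Algebra.TensorProduct.map ρ (AlgHom.id k A)).toRingHom.comp
      (evX A R (k := k)).toRingHom =
      (evX A R' (k := k)).toRingHom.comp (Polynomial.mapRingHom ρ.toRingHom) := by
    apply Polynomial.ringHom_ext
    · intro a
      simp [evX, Algebra.TensorProduct.algebraMap_apply]
    · simp [evX]
  exact congrArg (fun f => f G) this

end Curve

theorem isDedekindDomain_of_ringEquiv {A B : Type*} [CommRing A] [CommRing B] (e : A ≃+* B)
    [IsDedekindDomain A] : IsDedekindDomain B := by
  have h1 : IsDomain B := e.symm.toMulEquiv.isDomain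
  have h2 : IsNoetherianRing B := isNoetherianRing_of_ringEquiv A e
  have h3 : Ring.DimensionLEOne B := Ring.DimensionLEOne.of_ringEquiv e.symm
  have h4 : IsIntegrallyClosed B := IsIntegrallyClosed.of_equiv e
  exact { h1, h2, h3, h4 with }

section Final

universe u

/-- **WP5**. Ideals with finite projective quotient on a family of smooth affine curves are
invertible. -/
theorem invertible_of_projective_quotient {k A : Type u} [Field k] [CommRing A] [Algebra k A]
    [Algebra k[X] A] [IsScalarTower k k[X] A] [Algebra.FiniteType k A] [Module.Flat k[X] A]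
    (hA : ∀ (K : Type u) [Field K] [Algebra k K], IsDedekindDomain (K ⊗[k] A))
    {R : Type u} [CommRing R] [Algebra k R] (I : Ideal (R ⊗[k] A))
    [Module.Finite R ((R ⊗[k] A) ⧸ I)] [Module.Projective R ((R ⊗[k] A) ⧸ I)] :
    Module.Invertible (R ⊗[k] A) I := by
  have hfp : Algebra.FinitePresentation k A :=
    Algebra.FinitePresentation.of_finiteType.mp inferInstance
  have hfp1 : Module.FinitePresentation R ((R ⊗[k] A) ⧸ I) :=
    Module.finitePresentation_of_projective _ _
  have hI : I.FG := by
    have := Algebra.FinitePresentation.ker_fG_of_surjective (Ideal.Quotient.mkₐ R I)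
      (Ideal.Quotient.mkₐ_surjective R I)
    have h2 : RingHom.ker (Ideal.Quotient.mkₐ R I).toRingHom = I := Ideal.mk_ker
    rwa [h2] at this
  -- the monic polynomial
  obtain ⟨G, hGm, hG⟩ : IsIntegral R (Ideal.Quotient.mk I
      ((1 : R) ⊗ₜ[k] algebraMap k[X] A X)) := Algebra.IsIntegral.isIntegral _
  have hgI : evX A R (k := k) G ∈ I := by
    rw [← Ideal.Quotient.eq_zero_iff_mem]
    have : Ideal.Quotient.mkₐ R I (evX A R (k := k) G) =
        aeval (Ideal.Quotient.mkₐ R I ((1 : R) ⊗ₜ[k] algebraMap k[X] A X)) G := by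
      rw [evX_apply, ← Polynomial.aeval_algHom_apply]
    change Ideal.Quotient.mkₐ R I _ = 0
    rw [this]
    exact hG
  have hg := evX_mem_nonZeroDivisors (k := k) (A := A) hGm
  -- the fibres
  let p : Ideal (R ⊗[k] A) → Ideal R := fun m => m.comap (algebraMap R (R ⊗[k] A))
  let KK : Ideal (R ⊗[k] A) → Type u := fun m => FractionRing (R ⧸ p m)
  have hp : ∀ m : Ideal (R ⊗[k] A), m.IsMaximal → (p m).IsPrime := fun m hm =>
    Ideal.comap_isPrime _ _
  let e : ∀ m : Ideal (R ⊗[k] A), (R ⊗[k] A) ⊗[R] KK m ≃+* KK m ⊗[k] A := fun m =>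
    (Algebra.TensorProduct.comm R (R ⊗[k] A) (KK m)).toRingEquiv.trans
      (Algebra.TensorProduct.cancelBaseChange k R (KK m) (KK m) A).toRingEquiv
  refine invertible_of_fibre (R := R) I hI hg hgI KK ?_ ?_ ?_
  · intro m hm
    have := hp m hm
    letI : Field (KK m) := inferInstanceAs (Field (FractionRing (R ⧸ p m)))
    letI : Field ((R ⊗[k] A) ⧸ m) := Ideal.Quotient.field m
    have hinj : Function.Injective (Ideal.quotientMapₐ m (Algebra.ofId R (R ⊗[k] A))
        (I := p m) le_rfl) := Ideal.quotientMap_injective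
    exact IsFractionRing.liftAlgHom (K := KK m) hinj
  · intro m hm
    have := hp m hm
    letI : Field (KK m) := inferInstanceAs (Field (FractionRing (R ⧸ p m)))
    have := hA (KK m)
    exact isDedekindDomain_of_ringEquiv (e m).symm
  · intro m hm h0
    have := hp m hm
    letI : Field (KK m) := inferInstanceAs (Field (FractionRing (R ⧸ p m)))
    have := hA (KK m)
    have : Nontrivial (KK m ⊗[k] A) := IsDomain.toNontrivial
    have h1 : e m (evX A R (k := k) G ⊗ₜ 1) = 0 := by rw [h0, map_zero]
    have h2 : e m (evX A R (k := k) G ⊗ₜ 1) =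
        evX A (KK m) (k := k) (G.map (algebraMap R (KK m))) := by
      have h4 : ∀ z : R ⊗[k] A, e m (z ⊗ₜ 1) =
          Algebra.TensorProduct.map (IsScalarTower.toAlgHom k R (KK m)) (AlgHom.id k A) z := by
        intro z
        induction z with
        | zero => rw [TensorProduct.zero_tmul, map_zero, map_zero]
        | add a b ha hb => rw [TensorProduct.add_tmul, map_add, map_add, ha, hb]
        | tmul r a => simp [e, Algebra.smul_def]
      rw [h4, map_evX]
      rfl
    rw [h2] at h1
    have h3 := evX_mem_nonZeroDivisors (k := k) (A := A) (hGm.map (algebraMap R (KK m)))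
    exact nonZeroDivisors.ne_zero h3 h1

end Final

end Fermat.Agent.S25c
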