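import Mathlib

/-!
# Finiteness and openness for two-term complexes over the projective line

`B` is an arbitrary commutative ring.  A "pair" consists of two `B[X]`-modules `E`, `E'`
(the second one thought of as a module over `B[Y]`, `Y = 1/X`), a `B`-module `E''` with an
automorphism `T` (multiplication by `X`) and comparison maps `i : E → E''`, `j : E' → E''`
which are localisations.
-/

open Polynomial

namespace Fermat.Agent.S25c

section Basic

variable {B : Type*} [CommRing B]
variable {E : Type*} [AddCommGroup E] [Module B E] [Module B[X] E] [IsScalarTower B B[X] E]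
variable {E'' : Type*} [AddCommGroup E''] [Module B E'']

omit [IsScalarTower B B[X] E] in
lemma i_X_pow_smul {T : E'' ≃ₗ[B] E''} {i : E →ₗ[B] E''}
    (hi : ∀ e, i ((X : B[X]) • e) = T (i e)) (n : ℕ) (e : E) :
    i ((X : B[X]) ^ n • e) = (T ^ n) (i e) := by
  induction n generalizing e with
  | zero => simp
  | succ n ih => rw [pow_succ, mul_smul, ih, hi, pow_succ]; rfl

/-- If `E` is finitely generated over `B[X]` and `E''` is the localisation of `E` at `X`, then a
`B`-linear map out of `E''` which kills `E` and which kills `T⁻ᵐ e''` for `m` large has finitely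
generated range. -/
theorem range_fg_of_finite [Module.Finite B[X] E] {Z : Type*} [AddCommGroup Z] [Module B Z]
    (T : E'' ≃ₗ[B] E'') (i : E →ₗ[B] E'')
    (hi : ∀ e, i ((X : B[X]) • e) = T (i e))
    (si : ∀ e'' : E'', ∃ (n : ℕ) (e : E), i e = (T ^ n) e'')
    (ρ : E'' →ₗ[B] Z) (hρi : ∀ e, ρ (i e) = 0)
    (hρ : ∀ e'' : E'', ∃ n : ℕ, ∀ m : ℕ, n ≤ m → ρ ((T⁻¹ ^ m) e'') = 0) :
    (LinearMap.range ρ).FG := by
  classical
  obtain ⟨S, hS⟩ := (Module.Finite.fg_top : (⊤ : Submodule B[X] E).FG)
  choose N hN using fun e : E => hρ (i e)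
  let Nm : ℕ := S.sup N
  let G : Finset Z := (S ×ˢ Finset.range Nm).image (fun q => ρ ((T⁻¹ ^ q.2) (i q.1)))
  refine ⟨G, le_antisymm ?_ ?_⟩
  · rw [Submodule.span_le]
    intro z hz
    simp only [G, Finset.coe_image, Set.mem_image] at hz
    obtain ⟨q, -, rfl⟩ := hz
    exact ⟨_, rfl⟩
  · -- every `ρ (T^m (i s))`, `m : ℤ`, is in the span
    have key : ∀ s ∈ S, ∀ m : ℤ, ρ ((T ^ m) (i s)) ∈ Submodule.span B (G : Set Z) := by
      intro s hs m
      obtain ⟨m, rfl | rfl⟩ := m.eq_nat_or_neg
      · rw [zpow_natCast, ← i_X_pow_smul hi, hρi]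
        exact Submodule.zero_mem _
      · rw [zpow_neg, zpow_natCast, ← inv_pow]
        by_cases hm : m < Nm
        · apply Submodule.subset_span
          simp only [G, Finset.coe_image, Set.mem_image]
          exact ⟨(s, m), by simp [hs, hm], rfl⟩
        · have h1 : N s ≤ m := (Finset.le_sup (f := N) hs).trans (not_lt.mp hm)
          rw [hN s m h1]
          exact Submodule.zero_mem _
    have key2 : ∀ e : E, ∀ m : ℤ, ρ ((T ^ m) (i e)) ∈ Submodule.span B (G : Set Z) := by
      intro e
      have he : e ∈ Submodule.span B[X] (S : Set E) := by rw [hS]; trivial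
      induction he using Submodule.span_induction with
      | mem x hx => exact key x hx
      | zero => intro m; simp
      | add x y _ _ hx hy =>
        intro m
        rw [map_add, map_add, map_add]
        exact Submodule.add_mem _ (hx m) (hy m)
      | smul p x _ hx =>
        intro m
        induction p using Polynomial.induction_on' with
        | add p q hp hq =>
          rw [add_smul, map_add, map_add, map_add]
          exact Submodule.add_mem _ hp hq
        | monomial n b =>
          have h1 : (Polynomial.monomial n b : B[X]) • x = b • ((X : B[X]) ^ n • x) := by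
            rw [← Polynomial.smul_X_eq_monomial, smul_assoc]
          rw [h1, map_smul, map_smul, map_smul, i_X_pow_smul hi]
          have h2 : (T ^ m) ((T ^ n) (i x)) = (T ^ (m + n)) (i x) := by
            rw [zpow_add, zpow_natCast]; rfl
          rw [h2]
          exact Submodule.smul_mem _ _ (hx _)
    rintro _ ⟨e'', rfl⟩
    obtain ⟨n, e, he⟩ := si e''
    have h1 : e'' = (T ^ (-(n : ℤ))) (i e) := by
      rw [he, zpow_neg, zpow_natCast]
      exact (LinearEquiv.symm_apply_apply (T ^ n) e'').symm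
    rw [h1]
    exact key2 _ _

end Basic

section Pair

variable {B : Type*} [CommRing B]
variable {E : Type*} [AddCommGroup E] [Module B E] [Module B[X] E] [IsScalarTower B B[X] E]
variable {E' : Type*} [AddCommGroup E'] [Module B E'] [Module B[X] E'] [IsScalarTower B B[X] E']
variable {E'' : Type*} [AddCommGroup E''] [Module B E'']

/-- Data of a "quasi-coherent sheaf on the projective line over `B`". -/
structure IsPair (T : E'' ≃ₗ[B] E'') (i : E →ₗ[B] E'') (j : E' →ₗ[B] E'') : Prop where
  hi : ∀ e, i ((X : B[X]) • e) = T (i e)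
  hj : ∀ e, j ((X : B[X]) • e) = T⁻¹ (j e)
  si : ∀ e'' : E'', ∃ (n : ℕ) (e : E), i e = (T ^ n) e''
  sj : ∀ e'' : E'', ∃ (n : ℕ) (e : E'), j e = (T⁻¹ ^ n) e''
  ki : ∀ e, i e = 0 → ∃ n : ℕ, (X : B[X]) ^ n • e = 0
  kj : ∀ e, j e = 0 → ∃ n : ℕ, (X : B[X]) ^ n • e = 0

namespace IsPair

variable {T : E'' ≃ₗ[B] E''} {i : E →ₗ[B] E''} {j : E' →ₗ[B] E''}

omit [IsScalarTower B B[X] E] [IsScalarTower B B[X] E'] in
lemma sj' (h : IsPair T i j) (e'' : E'') :
    ∃ n : ℕ, ∀ m : ℕ, n ≤ m → ∃ e : E', j e = (T⁻¹ ^ m) e'' := by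
  obtain ⟨n, e, he⟩ := h.sj e''
  refine ⟨n, fun m hm => ⟨(X : B[X]) ^ (m - n) • e, ?_⟩⟩
  rw [i_X_pow_smul h.hj, he]
  rw [← LinearEquiv.mul_apply, ← pow_add, Nat.sub_add_cancel hm]

omit [IsScalarTower B B[X] E] [IsScalarTower B B[X] E'] in
lemma si' (h : IsPair T i j) (e'' : E'') :
    ∃ n : ℕ, ∀ m : ℕ, n ≤ m → ∃ e : E, i e = (T ^ m) e'' := by
  obtain ⟨n, e, he⟩ := h.si e''
  refine ⟨n, fun m hm => ⟨(X : B[X]) ^ (m - n) • e, ?_⟩⟩
  rw [i_X_pow_smul h.hi, he]
  rw [← LinearEquiv.mul_apply, ← pow_add, Nat.sub_add_cancel hm]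

/-- The differential `E × E' → E''`, `(a, b) ↦ i a - j b`. -/
noncomputable abbrev δ (i : E →ₗ[B] E'') (j : E' →ₗ[B] E'') : E × E' →ₗ[B] E'' :=
  i.coprod (-j)

omit [IsScalarTower B B[X] E'] in
/-- `H¹` is finitely generated. -/
theorem finite_coker (h : IsPair T i j) [Module.Finite B[X] E] :
    Module.Finite B (E'' ⧸ LinearMap.range (δ i j)) := by
  have := range_fg_of_finite T i h.hi h.si (LinearMap.range (δ i j)).mkQ
    (fun e => by
      rw [Submodule.mkQ_apply, Submodule.Quotient.mk_eq_zero]
      exact ⟨(e, 0), by simp⟩)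
    (fun e'' => by
      obtain ⟨n, hn⟩ := h.sj' e''
      refine ⟨n, fun m hm => ?_⟩
      obtain ⟨e, he⟩ := hn m hm
      rw [Submodule.mkQ_apply, Submodule.Quotient.mk_eq_zero]
      exact ⟨(0, -e), by simp [he]⟩)
  rw [Submodule.range_mkQ] at this
  exact ⟨this⟩

omit [IsScalarTower B B[X] E] [IsScalarTower B B[X] E'] in
/-- Common generators of `E` and `E'`. -/
theorem exists_generators (h : IsPair T i j) [Module.Finite B[X] E] [Module.Finite B[X] E'] :
    ∃ (ι : Type) (_ : Fintype ι) (N : ℕ) (u : ι → E) (v : ι → E'), 1 ≤ N ∧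
      Submodule.span B[X] (Set.range u) = ⊤ ∧ Submodule.span B[X] (Set.range v) = ⊤ ∧
      ∀ s, j (v s) = (T⁻¹ ^ N) (i (u s)) := by
  classical
  obtain ⟨n, a, ha⟩ := Module.Finite.exists_fin (R := B[X]) (M := E)
  obtain ⟨n', a', ha'⟩ := Module.Finite.exists_fin (R := B[X]) (M := E')
  choose m hm using fun s : Fin n => h.sj' (i (a s))
  choose m' hm' using fun s : Fin n' => h.si' (j (a' s))
  let N := ((Finset.univ.sup m) ⊔ (Finset.univ.sup m')) ⊔ 1
  have hN : ∀ s, m s ≤ N := fun s => 
    ((Finset.le_sup (Finset.mem_univ s)).trans le_sup_left).trans le_sup_left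
  have hN' : ∀ s, m' s ≤ N := fun s =>
    ((Finset.le_sup (Finset.mem_univ s)).trans le_sup_right).trans le_sup_left
  choose b hb using fun s => hm s N (hN s)
  choose b' hb' using fun s => hm' s N (hN' s)
  refine ⟨Fin n ⊕ Fin n', inferInstance, N, Sum.elim a b', Sum.elim b a', le_sup_right, ?_, ?_, ?_⟩
  · rw [eq_top_iff, ← ha, Submodule.span_le]
    rintro _ ⟨s, rfl⟩
    exact Submodule.subset_span ⟨Sum.inl s, rfl⟩
  · rw [eq_top_iff, ← ha', Submodule.span_le]
    rintro _ ⟨s, rfl⟩
    exact Submodule.subset_span ⟨Sum.inr s, rfl⟩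
  · rintro (s | s)
    · exact hb s
    · simp only [Sum.elim_inr, hb' s]
      rw [inv_pow]
      exact (LinearEquiv.symm_apply_apply (T ^ N) _).symm

end IsPair

end Pair

section Kernel

lemma inv_pow_inv_pow {B : Type*} [CommRing B] {M : Type*} [AddCommGroup M] [Module B M]
    (T : M ≃ₗ[B] M) (n N : ℕ) (x : M) :
    (T⁻¹ ^ n) ((T⁻¹ ^ N) x) = (T ^ (-(N : ℤ) - n)) x := by
  rw [← LinearEquiv.mul_apply, ← pow_add, inv_pow, ← zpow_natCast, ← zpow_neg]
  congr 2
  push_cast
  ring

variable {B : Type*} [CommRing B]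
variable {E : Type*} [AddCommGroup E] [Module B E] [Module B[X] E] [IsScalarTower B B[X] E]
variable {E' : Type*} [AddCommGroup E'] [Module B E'] [Module B[X] E'] [IsScalarTower B B[X] E']
variable {E'' : Type*} [AddCommGroup E''] [Module B E'']

/-- The shift on `(ι × ℤ) →₀ B`. -/
noncomputable def sh (B : Type*) [CommRing B] (ι : Type) : ((ι × ℤ) →₀ B) ≃ₗ[B] ((ι × ℤ) →₀ B) :=
  Finsupp.domLCongr ((Equiv.refl ι).prodCongr (Equiv.addRight 1))

lemma sh_single (ι : Type) (s : ι) (m : ℤ) (b : B) :
    sh B ι (Finsupp.single (s, m) b) = Finsupp.single (s, m + 1) b := by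
  simp [sh]

lemma sh_pow_single (ι : Type) (s : ι) (m : ℤ) (b : B) (n : ℕ) :
    (sh B ι ^ n) (Finsupp.single (s, m) b) = Finsupp.single (s, m + n) b := by
  induction n with
  | zero => simp
  | succ n ih =>
    rw [pow_succ', LinearEquiv.mul_apply, ih, sh_single]
    congr 2
    push_cast
    ring

lemma sh_inv_single (ι : Type) (s : ι) (m : ℤ) (b : B) :
    (sh B ι)⁻¹ (Finsupp.single (s, m) b) = Finsupp.single (s, m - 1) b := by
  have : sh B ι (Finsupp.single (s, m - 1) b) = Finsupp.single (s, m) b := by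
    rw [sh_single]; simp
  rw [← this]
  exact (sh B ι).symm_apply_apply _

lemma sh_inv_pow_single (ι : Type) (s : ι) (m : ℤ) (b : B) (n : ℕ) :
    ((sh B ι)⁻¹ ^ n) (Finsupp.single (s, m) b) = Finsupp.single (s, m - n) b := by
  induction n with
  | zero => simp
  | succ n ih =>
    rw [pow_succ', LinearEquiv.mul_apply, ih, sh_inv_single]
    congr 2
    push_cast
    ring

/-- Embedding of `ι → B[X]` into `(ι × ℤ) →₀ B` determined by an injection of exponents. -/
noncomputable def toF (B : Type*) [CommRing B] {ι : Type} [Fintype ι] (g : ℕ → ℤ) :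
    (ι → B[X]) →ₗ[B] ((ι × ℤ) →₀ B) :=
  ∑ s, ((Polynomial.basisMonomials B).constr B (fun n => Finsupp.single (s, g n) (1 : B))) ∘ₗ
    LinearMap.proj s

lemma toF_single {ι : Type} [Fintype ι] [DecidableEq ι] (g : ℕ → ℤ) (s : ι) (n : ℕ) (b : B) :
    toF B g (Pi.single s (Polynomial.monomial n b)) = Finsupp.single (s, g n) b := by
  rw [toF, LinearMap.sum_apply, Finset.sum_eq_single s]
  · simp only [LinearMap.coe_comp, Function.comp_apply, LinearMap.proj_apply, Pi.single_eq_same]
    have : (Polynomial.monomial n b : B[X]) = b • (Polynomial.basisMonomials B) n := by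
      simp [Polynomial.smul_monomial]
    rw [this, map_smul, Module.Basis.constr_basis]
    simp
  · intro t _ hts
    simp [Pi.single_eq_of_ne hts]
  · simp

/-- extensionality for `B`-linear maps out of `ι → B[X]`. -/
lemma pi_poly_ext {ι : Type} [Fintype ι] [DecidableEq ι] {Z : Type*} [AddCommGroup Z] [Module B Z]
    {f g : (ι → B[X]) →ₗ[B] Z}
    (h : ∀ s n b, f (Pi.single s (Polynomial.monomial n b)) =
      g (Pi.single s (Polynomial.monomial n b))) : f = g := by
  apply LinearMap.pi_ext'
  intro s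
  apply Polynomial.lhom_ext'
  intro n
  ext
  simpa using h s n 1

lemma toF_X_smul {ι : Type} [Fintype ι] (p : ι → B[X]) :
    toF B (fun n => (n : ℤ)) ((X : B[X]) • p) = sh B ι (toF B (fun n => (n : ℤ)) p) := by
  classical
  let f : (ι → B[X]) →ₗ[B] ((ι × ℤ) →₀ B) :=
    (toF B (fun n => (n : ℤ))) ∘ₗ (LinearMap.lsmul B[X] (ι → B[X]) X).restrictScalars B
  let g : (ι → B[X]) →ₗ[B] ((ι × ℤ) →₀ B) :=
    (sh B ι).toLinearMap ∘ₗ (toF B (fun n => (n : ℤ)))
  have : f = g := by
    apply pi_poly_ext
    intro s n b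
    simp only [f, g, LinearMap.coe_comp, Function.comp_apply, LinearMap.coe_restrictScalars,
      LinearMap.lsmul_apply, LinearEquiv.coe_coe]
    rw [toF_single, sh_single, ← Pi.single_smul, smul_eq_mul, Polynomial.X_mul_monomial, toF_single]
    simp
  exact LinearMap.congr_fun this p

lemma toF_X_pow_smul {ι : Type} [Fintype ι] (n : ℕ) (p : ι → B[X]) :
    toF B (fun n => (n : ℤ)) ((X : B[X]) ^ n • p) = (sh B ι ^ n) (toF B (fun n => (n : ℤ)) p) := by
  induction n generalizing p with
  | zero => simp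
  | succ n ih => rw [pow_succ, mul_smul, ih, toF_X_smul, pow_succ]; rfl

lemma toF_neg_X_smul {ι : Type} [Fintype ι] (N : ℕ) (p : ι → B[X]) :
    toF B (fun n => -(N : ℤ) - n) ((X : B[X]) • p) =
      (sh B ι)⁻¹ (toF B (fun n => -(N : ℤ) - n) p) := by
  classical
  let f : (ι → B[X]) →ₗ[B] ((ι × ℤ) →₀ B) :=
    (toF B (fun n => -(N : ℤ) - n)) ∘ₗ (LinearMap.lsmul B[X] (ι → B[X]) X).restrictScalars B
  let g : (ι → B[X]) →ₗ[B] ((ι × ℤ) →₀ B) :=
    (sh B ι)⁻¹.toLinearMap ∘ₗ (toF B (fun n => -(N : ℤ) - n))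
  have : f = g := by
    apply pi_poly_ext
    intro s n b
    simp only [f, g, LinearMap.coe_comp, Function.comp_apply, LinearMap.coe_restrictScalars,
      LinearMap.lsmul_apply, LinearEquiv.coe_coe]
    rw [toF_single, sh_inv_single, ← Pi.single_smul, smul_eq_mul, Polynomial.X_mul_monomial,
      toF_single]
    congr 2
    push_cast
    ring
  exact LinearMap.congr_fun this p

lemma toF_neg_X_pow_smul {ι : Type} [Fintype ι] (N : ℕ) (n : ℕ) (p : ι → B[X]) :
    toF B (fun n => -(N : ℤ) - n) ((X : B[X]) ^ n • p) =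
      ((sh B ι)⁻¹ ^ n) (toF B (fun n => -(N : ℤ) - n) p) := by
  induction n generalizing p with
  | zero => simp
  | succ n ih => rw [pow_succ, mul_smul, ih, toF_neg_X_smul, pow_succ]; rfl

lemma exists_toF_eq {ι : Type} [Fintype ι] (w : (ι × ℤ) →₀ B) :
    ∃ n : ℕ, ∀ m : ℕ, n ≤ m → ∃ p : ι → B[X], toF B (fun n => (n : ℤ)) p = (sh B ι ^ m) w := by
  classical
  induction w using Finsupp.induction_linear with
  | zero => exact ⟨0, fun m _ => ⟨0, by simp⟩⟩
  | add f g hf hg =>
    obtain ⟨n, hn⟩ := hf
    obtain ⟨n', hn'⟩ := hg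
    refine ⟨max n n', fun m hm => ?_⟩
    obtain ⟨p, hp⟩ := hn m ((le_max_left _ _).trans hm)
    obtain ⟨q, hq⟩ := hn' m ((le_max_right _ _).trans hm)
    exact ⟨p + q, by rw [map_add, hp, hq, map_add]⟩
  | single q b =>
    obtain ⟨s, k⟩ := q
    refine ⟨(-k).toNat, fun m hm => ⟨Pi.single s (Polynomial.monomial (k + m).toNat b), ?_⟩⟩
    rw [toF_single, sh_pow_single]
    congr 2
    omega

lemma exists_toF_neg_eq {ι : Type} [Fintype ι] (N : ℕ) (w : (ι × ℤ) →₀ B) :
    ∃ n : ℕ, ∀ m : ℕ, n ≤ m → ∃ p : ι → B[X],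
      toF B (fun n => -(N : ℤ) - n) p = ((sh B ι)⁻¹ ^ m) w := by
  classical
  induction w using Finsupp.induction_linear with
  | zero => exact ⟨0, fun m _ => ⟨0, by simp⟩⟩
  | add f g hf hg =>
    obtain ⟨n, hn⟩ := hf
    obtain ⟨n', hn'⟩ := hg
    refine ⟨max n n', fun m hm => ?_⟩
    obtain ⟨p, hp⟩ := hn m ((le_max_left _ _).trans hm)
    obtain ⟨q, hq⟩ := hn' m ((le_max_right _ _).trans hm)
    exact ⟨p + q, by rw [map_add, hp, hq, map_add]⟩
  | single q b =>
    obtain ⟨s, k⟩ := q
    refine ⟨(k + N).toNat, fun m hm => ⟨Pi.single s (Polynomial.monomial (-(N:ℤ) - (k - m)).toNat b), ?_⟩⟩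
    rw [toF_single, sh_inv_pow_single]
    congr 2
    omega


section alph

variable {ι : Type} [Fintype ι]

/-- The map `(ι × ℤ) →₀ B → E''` determined by the generators. -/
noncomputable def alph (T : E'' ≃ₗ[B] E'') (i : E →ₗ[B] E'') (u : ι → E) :
    ((ι × ℤ) →₀ B) →ₗ[B] E'' :=
  Finsupp.linearCombination B (fun q => (T ^ q.2) (i (u q.1)))

omit [Module B[X] E] [IsScalarTower B B[X] E] [Fintype ι] in
lemma alph_single (T : E'' ≃ₗ[B] E'') (i : E →ₗ[B] E'') (u : ι → E) (s : ι) (m : ℤ) (c : B) :
    alph T i u (Finsupp.single (s, m) c) = c • (T ^ m) (i (u s)) := by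
  simp [alph]

omit [Module B[X] E] [IsScalarTower B B[X] E] [Fintype ι] in
lemma alph_sh (T : E'' ≃ₗ[B] E'') (i : E →ₗ[B] E'') (u : ι → E) (w : (ι × ℤ) →₀ B) :
    alph T i u (sh B ι w) = T (alph T i u w) := by
  induction w using Finsupp.induction_linear with
  | zero => simp
  | add f g hf hg => simp only [map_add, hf, hg]
  | single q c =>
    obtain ⟨s, m⟩ := q
    rw [sh_single, alph_single, alph_single, map_smul, ← LinearEquiv.mul_apply, ← zpow_one_add,
      add_comm]

omit [Module B[X] E] [IsScalarTower B B[X] E] [Fintype ι] in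
lemma alph_sh_inv (T : E'' ≃ₗ[B] E'') (i : E →ₗ[B] E'') (u : ι → E) (w : (ι × ℤ) →₀ B) :
    alph T i u ((sh B ι)⁻¹ w) = T⁻¹ (alph T i u w) := by
  have h1 := alph_sh T i u ((sh B ι)⁻¹ w)
  have h2 : sh B ι ((sh B ι)⁻¹ w) = w := (sh B ι).apply_symm_apply w
  rw [h2] at h1
  rw [h1]
  exact (T.symm_apply_apply _).symm

omit [Module B[X] E] [IsScalarTower B B[X] E] [Fintype ι] in
lemma alph_sh_pow (T : E'' ≃ₗ[B] E'') (i : E →ₗ[B] E'') (u : ι → E) (n : ℕ)
    (w : (ι × ℤ) →₀ B) :
    alph T i u ((sh B ι ^ n) w) = (T ^ n) (alph T i u w) := by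
  induction n generalizing w with
  | zero => simp
  | succ n ih => rw [pow_succ, LinearEquiv.mul_apply, ih, alph_sh, pow_succ]; rfl

omit [Module B[X] E] [IsScalarTower B B[X] E] [Fintype ι] in
lemma alph_sh_inv_pow (T : E'' ≃ₗ[B] E'') (i : E →ₗ[B] E'') (u : ι → E) (n : ℕ)
    (w : (ι × ℤ) →₀ B) :
    alph T i u (((sh B ι)⁻¹ ^ n) w) = (T⁻¹ ^ n) (alph T i u w) := by
  induction n generalizing w with
  | zero => simp
  | succ n ih => rw [pow_succ, LinearEquiv.mul_apply, ih, alph_sh_inv, pow_succ]; rfl

omit [Module B E] [IsScalarTower B B[X] E] in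
lemma linearCombination_single_monomial [Module B E] [IsScalarTower B B[X] E] [DecidableEq ι]
    (u : ι → E) (s : ι) (n : ℕ) (c : B) :
    Fintype.linearCombination B[X] u (Pi.single s (Polynomial.monomial n c)) =
      c • (X : B[X]) ^ n • u s := by
  simp only [Fintype.linearCombination_apply_single]
  rw [← Polynomial.smul_X_eq_monomial, smul_assoc]

namespace IsPair

variable {T : E'' ≃ₗ[B] E''} {i : E →ₗ[B] E''} {j : E' →ₗ[B] E''}

omit [IsScalarTower B B[X] E'] in
lemma alph_toF (h : IsPair T i j) (u : ι → E) (p : ι → B[X]) :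
    alph T i u (toF B (fun n => (n : ℤ)) p) = i (Fintype.linearCombination B[X] u p) := by
  classical
  have : alph T i u ∘ₗ (toF B (fun n => (n : ℤ))) =
      i ∘ₗ ((Fintype.linearCombination B[X] u).restrictScalars B) := by
    apply pi_poly_ext
    intro s n c
    simp only [LinearMap.coe_comp, Function.comp_apply, LinearMap.coe_restrictScalars]
    rw [toF_single, alph_single, linearCombination_single_monomial, map_smul,
      i_X_pow_smul h.hi, zpow_natCast]
  exact LinearMap.congr_fun this p

omit [IsScalarTower B B[X] E] in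
lemma alph_toF_neg (h : IsPair T i j) {u : ι → E} {v : ι → E'} {N : ℕ}
    (huv : ∀ s, j (v s) = (T⁻¹ ^ N) (i (u s))) (p : ι → B[X]) :
    alph T i u (toF B (fun n => -(N : ℤ) - n) p) =
      j (Fintype.linearCombination B[X] v p) := by
  classical
  have : alph T i u ∘ₗ (toF B (fun n => -(N : ℤ) - n)) =
      j ∘ₗ ((Fintype.linearCombination B[X] v).restrictScalars B) := by
    apply pi_poly_ext
    intro s n c
    simp only [LinearMap.coe_comp, Function.comp_apply, LinearMap.coe_restrictScalars]
    rw [toF_single, alph_single, linearCombination_single_monomial, map_smul,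
      i_X_pow_smul h.hj, huv, inv_pow_inv_pow]
  exact LinearMap.congr_fun this p

omit [IsScalarTower B B[X] E'] in
lemma alph_surjective (h : IsPair T i j) {u : ι → E}
    (hu : Submodule.span B[X] (Set.range u) = ⊤) : Function.Surjective (alph T i u) := by
  intro e''
  obtain ⟨n, e, he⟩ := h.si e''
  have hφ : Function.Surjective (Fintype.linearCombination B[X] u) := by
    rw [← LinearMap.range_eq_top, Fintype.range_linearCombination, hu]
  obtain ⟨p, rfl⟩ := hφ e
  refine ⟨((sh B ι)⁻¹ ^ n) (toF B (fun n => (n : ℤ)) p), ?_⟩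
  rw [alph_sh_inv_pow, h.alph_toF, he, inv_pow]
  exact (T ^ n).symm_apply_apply e''

/-- The key finiteness statement. -/
theorem fg_map_ker_alph (h : IsPair T i j) [Module.FinitePresentation B[X] E]
    {u : ι → E} {v : ι → E'} {N : ℕ} (hu : Submodule.span B[X] (Set.range u) = ⊤)
    (huv : ∀ s, j (v s) = (T⁻¹ ^ N) (i (u s)))
    {Z : Type*} [AddCommGroup Z] [Module B Z] (ρ : ((ι × ℤ) →₀ B) →ₗ[B] Z)
    (hρ : ∀ p, Fintype.linearCombination B[X] u p = 0 → ρ (toF B (fun n => (n : ℤ)) p) = 0)
    (hρ' : ∀ p, Fintype.linearCombination B[X] v p = 0 →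
      ρ (toF B (fun n => -(N : ℤ) - n) p) = 0) :
    (Submodule.map ρ (LinearMap.ker (alph T i u))).FG := by
  classical
  let φ : (ι → B[X]) →ₗ[B[X]] E := Fintype.linearCombination B[X] u
  let φ' : (ι → B[X]) →ₗ[B[X]] E' := Fintype.linearCombination B[X] v
  have hφ : Function.Surjective φ := by
    rw [← LinearMap.range_eq_top, Fintype.range_linearCombination, hu]
  have hker : (LinearMap.ker φ).FG := Module.FinitePresentation.fg_ker φ hφ
  let α := alph T i u
  let K := LinearMap.ker α
  have hK1 : ∀ w ∈ K, (sh B ι).toLinearMap w ∈ K := by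
    intro w hw
    simp only [K, α, LinearMap.mem_ker, LinearEquiv.coe_coe] at hw ⊢
    rw [alph_sh, hw, map_zero]
  have hK2 : ∀ w ∈ K, ((sh B ι)⁻¹).toLinearMap w ∈ K := by
    intro w hw
    simp only [K, α, LinearMap.mem_ker, LinearEquiv.coe_coe] at hw ⊢
    rw [alph_sh_inv, hw, map_zero]
  let TK : K ≃ₗ[B] K := LinearEquiv.ofLinearMap
    ((sh B ι).toLinearMap.restrict hK1) ((sh B ι)⁻¹.toLinearMap.restrict hK2)
    (by
      ext1 w
      apply Subtype.ext
      exact (sh B ι).apply_symm_apply _)
    (by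
      ext1 w
      apply Subtype.ext
      exact (sh B ι).symm_apply_apply _)
  have hTK : ∀ w : K, ((TK w : K) : (ι × ℤ) →₀ B) = sh B ι w := fun w => rfl
  have hTK' : ∀ w : K, ((TK⁻¹ w : K) : (ι × ℤ) →₀ B) = (sh B ι)⁻¹ w := fun w => rfl
  have hTKn : ∀ (n : ℕ) (w : K), (((TK ^ n) w : K) : (ι × ℤ) →₀ B) = (sh B ι ^ n) w := by
    intro n w
    induction n generalizing w with
    | zero => simp
    | succ n ih => rw [pow_succ, LinearEquiv.mul_apply, ih, hTK, pow_succ]; rfl
  have hTKn' : ∀ (n : ℕ) (w : K),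
      (((TK⁻¹ ^ n) w : K) : (ι × ℤ) →₀ B) = ((sh B ι)⁻¹ ^ n) w := by
    intro n w
    induction n generalizing w with
    | zero => simp
    | succ n ih => rw [pow_succ, LinearEquiv.mul_apply, ih, hTK', pow_succ]; rfl
  have : Module.Finite B[X] (LinearMap.ker φ) := Module.Finite.iff_fg.mpr hker
  let iK : LinearMap.ker φ →ₗ[B] K := LinearMap.codRestrict K
    ((toF B (fun n => (n : ℤ))) ∘ₗ ((LinearMap.ker φ).subtype.restrictScalars B))
    (by
      intro g
      simp only [LinearMap.coe_comp, Function.comp_apply, LinearMap.coe_restrictScalars,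
        Submodule.coe_subtype, K, α, LinearMap.mem_ker]
      rw [h.alph_toF]
      have := LinearMap.mem_ker.mp g.2
      simp only [φ] at this
      rw [this, map_zero])
  have hiK : ∀ g : LinearMap.ker φ, ((iK g : K) : (ι × ℤ) →₀ B) = toF B (fun n => (n : ℤ)) g.1 :=
    fun g => rfl
  have hfg := range_fg_of_finite (B := B) (E := LinearMap.ker φ) (E'' := K) (Z := Z) TK iK
    (fun g => by
      apply Subtype.ext
      rw [hTK, hiK, hiK, ← toF_X_smul]
      rfl)
    (fun w => by
      obtain ⟨n, hn⟩ := exists_toF_eq (w : (ι × ℤ) →₀ B)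
      obtain ⟨p, hp⟩ := hn n le_rfl
      have h1 : i (φ p) = 0 := by
        rw [← h.alph_toF, hp, alph_sh_pow, LinearMap.mem_ker.mp w.2, map_zero]
      obtain ⟨m, hm⟩ := h.ki _ h1
      refine ⟨m + n, ⟨(X : B[X]) ^ m • p, ?_⟩, ?_⟩
      · rw [LinearMap.mem_ker, map_smul, hm]
      · apply Subtype.ext
        rw [hiK, hTKn, toF_X_pow_smul, hp, ← LinearEquiv.mul_apply, ← pow_add])
    (ρ ∘ₗ K.subtype)
    (fun g => by
      simp only [LinearMap.coe_comp, Function.comp_apply, Submodule.coe_subtype]
      rw [hiK]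
      exact hρ _ (LinearMap.mem_ker.mp g.2))
    (fun w => by
      obtain ⟨n, hn⟩ := exists_toF_neg_eq N (w : (ι × ℤ) →₀ B)
      obtain ⟨p, hp⟩ := hn n le_rfl
      have h1 : j (φ' p) = 0 := by
        rw [← h.alph_toF_neg huv, hp, alph_sh_inv_pow, LinearMap.mem_ker.mp w.2, map_zero]
      obtain ⟨l, hl⟩ := h.kj _ h1
      refine ⟨l + n, fun m hm => ?_⟩
      obtain ⟨d, rfl⟩ := Nat.exists_eq_add_of_le hm
      simp only [LinearMap.coe_comp, Function.comp_apply, Submodule.coe_subtype]
      rw [hTKn', show l + n + d = (d + l) + n by ring, pow_add, LinearEquiv.mul_apply, ← hp,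
        ← toF_neg_X_pow_smul]
      apply hρ'
      have : Fintype.linearCombination B[X] v ((X : B[X]) ^ (d + l) • p) =
          (X : B[X]) ^ (d + l) • φ' p := map_smul φ' _ _
      rw [this, pow_add, mul_smul, hl, smul_zero])
  rw [LinearMap.range_comp, Submodule.range_subtype] at hfg
  exact hfg

/-- If `b` kills `H¹` then `b • H⁰` is contained in a finitely generated submodule of `H⁰`. -/
theorem exists_fg_le_ker (h : IsPair T i j) [Module.FinitePresentation B[X] E]
    [Module.Finite B[X] E'] (b : B) (hb : ∀ e'' : E'', b • e'' ∈ LinearMap.range (δ i j)) :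
    ∃ P : Submodule B (E × E'), P.FG ∧ P ≤ LinearMap.ker (δ i j) ∧
      ∀ x ∈ LinearMap.ker (δ i j), b • x ∈ P := by
  classical
  obtain ⟨ι, _, N, u, v, hN, hu, hv, huv⟩ := h.exists_generators
  have hφ : Function.Surjective (Fintype.linearCombination B[X] u) := by
    rw [← LinearMap.range_eq_top, Fintype.range_linearCombination, hu]
  have hφ' : Function.Surjective (Fintype.linearCombination B[X] v) := by
    rw [← LinearMap.range_eq_top, Fintype.range_linearCombination, hv]
  -- the lift
  choose c hc using fun q : ι × ℤ => hb ((T ^ q.2) (i (u q.1)))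
  let r : ι × ℤ → E × E' := fun q =>
    if 0 ≤ q.2 then (b • (X : B[X]) ^ (q.2.toNat) • u q.1, 0)
    else if q.2 ≤ -(N : ℤ) then (0, -(b • (X : B[X]) ^ ((-(N : ℤ) - q.2).toNat) • v q.1))
    else c q
  let ρ : ((ι × ℤ) →₀ B) →ₗ[B] E × E' := Finsupp.linearCombination B r
  have hρs : ∀ q a, ρ (Finsupp.single q a) = a • r q := by
    intro q a; simp [ρ]
  have hδr : ∀ q, δ i j (r q) = b • (T ^ q.2) (i (u q.1)) := by
    intro q
    simp only [r]
    split_ifs with h1 h2
    · simp only [δ, LinearMap.coprod_apply, map_zero, add_zero, map_smul]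
      rw [i_X_pow_smul h.hi]
      congr 2
      rw [← zpow_natCast, Int.toNat_of_nonneg h1]
    · simp only [δ, LinearMap.coprod_apply, map_zero, zero_add, map_smul, LinearMap.neg_apply,
        map_neg, smul_neg, neg_neg]
      rw [i_X_pow_smul h.hj, huv, inv_pow_inv_pow]
      congr 3
      rw [Int.toNat_of_nonneg (by omega)]
      ring
    · exact hc q
  have hδρ : ∀ w, δ i j (ρ w) = b • alph T i u w := by
    intro w
    induction w using Finsupp.induction_linear with
    | zero => simp
    | add f g hf hg => rw [map_add, map_add, hf, hg, map_add, smul_add]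
    | single q a =>
      obtain ⟨s, m⟩ := q
      rw [hρs, alph_single, map_smul, hδr, smul_comm]
  have hρφ : ∀ p, ρ (toF B (fun n => (n : ℤ)) p) =
      (b • Fintype.linearCombination B[X] u p, 0) := by
    intro p
    have : ρ ∘ₗ (toF B (fun n => (n : ℤ))) =
        (LinearMap.inl B E E') ∘ₗ (b • (Fintype.linearCombination B[X] u).restrictScalars B) := by
      apply pi_poly_ext
      intro s n a
      simp only [LinearMap.coe_comp, Function.comp_apply, LinearMap.smul_apply,
        LinearMap.coe_restrictScalars, LinearMap.coe_inl]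
      rw [toF_single, hρs, linearCombination_single_monomial]
      simp only [r, Int.natCast_nonneg, if_true, Int.toNat_natCast, Prod.smul_mk, smul_zero]
      rw [smul_comm]
    exact LinearMap.congr_fun this p
  have hρφ' : ∀ p, ρ (toF B (fun n => -(N : ℤ) - n) p) =
      (0, -(b • Fintype.linearCombination B[X] v p)) := by
    intro p
    have : ρ ∘ₗ (toF B (fun n => -(N : ℤ) - n)) = (LinearMap.inr B E E') ∘ₗ
        (-(b • (Fintype.linearCombination B[X] v).restrictScalars B)) := by
      apply pi_poly_ext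
      intro s n a
      simp only [LinearMap.coe_comp, Function.comp_apply, LinearMap.smul_apply,
        LinearMap.neg_apply, LinearMap.coe_restrictScalars, LinearMap.coe_inr]
      rw [toF_single, hρs, linearCombination_single_monomial]
      have h1 : ¬ (0 ≤ -(N : ℤ) - n) := by omega
      have h2 : -(N : ℤ) - n ≤ -(N : ℤ) := by omega
      simp only [r, h1, h2, if_true, if_false, Prod.smul_mk, smul_zero]
      have h3 : (-(N : ℤ) - (-(N : ℤ) - n)).toNat = n := by omega
      rw [h3, smul_neg, smul_comm]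
    exact LinearMap.congr_fun this p
  refine ⟨Submodule.map ρ (LinearMap.ker (alph T i u)),
    h.fg_map_ker_alph hu huv ρ (fun p hp => by rw [hρφ, hp, smul_zero]; rfl)
      (fun p hp => by rw [hρφ', hp, smul_zero, neg_zero]; rfl), ?_, ?_⟩
  · rintro _ ⟨w, hw, rfl⟩
    rw [LinearMap.mem_ker, hδρ, LinearMap.mem_ker.mp hw, smul_zero]
  · rintro ⟨a, a'⟩ hx
    obtain ⟨p, rfl⟩ := hφ a
    obtain ⟨q, rfl⟩ := hφ' a'
    have h1 : i (Fintype.linearCombination B[X] u p) -
        j (Fintype.linearCombination B[X] v q) = 0 := by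
      simpa [δ, sub_eq_add_neg] using hx
    refine ⟨toF B (fun n => (n : ℤ)) p - toF B (fun n => -(N : ℤ) - n) q, ?_, ?_⟩
    · change alph T i u _ = 0
      rw [map_sub, h.alph_toF, h.alph_toF_neg huv, h1]
    · rw [map_sub, hρφ, hρφ']
      simp

/-- `H¹` is finitely presented. -/
theorem finitePresentation_coker (h : IsPair T i j) [Module.FinitePresentation B[X] E]
    [Module.Finite B[X] E'] :
    Module.FinitePresentation B (E'' ⧸ LinearMap.range (δ i j)) := by
  classical
  obtain ⟨ι, _, N, u, v, hN, hu, hv, huv⟩ := h.exists_generators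
  have hφ : Function.Surjective (Fintype.linearCombination B[X] u) := by
    rw [← LinearMap.range_eq_top, Fintype.range_linearCombination, hu]
  have hφ' : Function.Surjective (Fintype.linearCombination B[X] v) := by
    rw [← LinearMap.range_eq_top, Fintype.range_linearCombination, hv]
  let I : Finset ℤ := Finset.Ioo (-(N : ℤ)) 0
  let W := (ι × I) →₀ B
  let Q := E'' ⧸ LinearMap.range (δ i j)
  let q : E'' →ₗ[B] Q := (LinearMap.range (δ i j)).mkQ
  let inc : W →ₗ[B] ((ι × ℤ) →₀ B) := Finsupp.lmapDomain B B (fun x => (x.1, (x.2 : ℤ)))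
  have hincs : ∀ s (m : I) c, inc (Finsupp.single (s, m) c) = Finsupp.single (s, (m : ℤ)) c := by
    intro s m c
    change Finsupp.mapDomain _ _ = _
    rw [Finsupp.mapDomain_single]
  let π : W →ₗ[B] Q := q ∘ₗ alph T i u ∘ₗ inc
  let ρ : ((ι × ℤ) →₀ B) →ₗ[B] W := Finsupp.linearCombination B (fun x =>
    if hx : x.2 ∈ I then Finsupp.single (x.1, ⟨x.2, hx⟩) 1 else 0)
  have hρs : ∀ x a, ρ (Finsupp.single x a) =
      if hx : x.2 ∈ I then Finsupp.single (x.1, ⟨x.2, hx⟩) a else 0 := by
    intro x a
    simp only [ρ, Finsupp.linearCombination_single]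
    split_ifs with hx
    · exact Finsupp.smul_single_one _ _
    · exact smul_zero _
  have hρinc : ∀ w, ρ (inc w) = w := by
    intro w
    induction w using Finsupp.induction_linear with
    | zero => rw [map_zero, map_zero]
    | add f g hf hg => rw [map_add, map_add, hf, hg]
    | single x c =>
      obtain ⟨s, m⟩ := x
      rw [hincs, hρs, dif_pos m.2]
  have hρpos : ∀ p, ρ (toF B (fun n => (n : ℤ)) p) = 0 := by
    intro p
    have : ρ ∘ₗ (toF B (fun n => (n : ℤ))) = 0 := by
      apply pi_poly_ext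
      intro s n a
      simp only [LinearMap.coe_comp, Function.comp_apply, LinearMap.zero_apply]
      rw [toF_single, hρs, dif_neg]
      simp [I]
    exact LinearMap.congr_fun this p
  have hρneg : ∀ p, ρ (toF B (fun n => -(N : ℤ) - n) p) = 0 := by
    intro p
    have : ρ ∘ₗ (toF B (fun n => -(N : ℤ) - n)) = 0 := by
      apply pi_poly_ext
      intro s n a
      simp only [LinearMap.coe_comp, Function.comp_apply, LinearMap.zero_apply]
      rw [toF_single, hρs, dif_neg]
      simp only [I, Finset.mem_Ioo, not_and, not_lt]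
      intro h1
      omega
    exact LinearMap.congr_fun this p
  -- `w - inc (ρ w)` is a sum of a positive and a negative part
  have hdec : ∀ w, ∃ p p', w = inc (ρ w) + toF B (fun n => (n : ℤ)) p +
      toF B (fun n => -(N : ℤ) - n) p' := by
    intro w
    induction w using Finsupp.induction_linear with
    | zero => exact ⟨0, 0, by simp⟩
    | add f g hf hg =>
      obtain ⟨p, p', hp⟩ := hf
      obtain ⟨r, r', hr⟩ := hg
      refine ⟨p + r, p' + r', ?_⟩
      conv_lhs => rw [hp, hr]
      simp only [map_add]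
      abel
    | single x c =>
      obtain ⟨s, m⟩ := x
      by_cases h1 : 0 ≤ m
      · refine ⟨Pi.single s (Polynomial.monomial m.toNat c), 0, ?_⟩
        rw [toF_single, map_zero, add_zero, hρs, dif_neg, map_zero, zero_add,
          Int.toNat_of_nonneg h1]
        simp only [I, Finset.mem_Ioo, not_and, not_lt]
        intro _; exact h1
      · by_cases h2 : m ≤ -(N : ℤ)
        · refine ⟨0, Pi.single s (Polynomial.monomial (-(N : ℤ) - m).toNat c), ?_⟩
          rw [toF_single, map_zero, add_zero, hρs, dif_neg, map_zero, zero_add,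
            Int.toNat_of_nonneg (by omega)]
          · congr 2
            ring
          · simp only [I, Finset.mem_Ioo, not_and, not_lt]
            intro h3
            omega
        · refine ⟨0, 0, ?_⟩
          have h3 : m ∈ I := by
            simp only [I, Finset.mem_Ioo]
            omega
          rw [map_zero, map_zero, add_zero, add_zero, hρs, dif_pos h3, hincs]
  have hq : ∀ x, q (δ i j x) = 0 := fun x => by
    rw [← LinearMap.comp_apply, LinearMap.range_mkQ_comp, LinearMap.zero_apply]
  have hqi : ∀ x, q (i x) = 0 := fun x => by simpa [δ] using hq (x, 0)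
  have hqj : ∀ x, q (j x) = 0 := fun x => by simpa [δ] using hq (0, x)
  have hπρ : ∀ w, π (ρ w) = q (alph T i u w) := by
    intro w
    obtain ⟨p, p', hp⟩ := hdec w
    conv_rhs => rw [hp]
    rw [map_add, map_add, map_add, map_add, h.alph_toF, h.alph_toF_neg huv, hqi, hqj]
    simp [π]
  have hπ : Function.Surjective π := by
    intro x
    obtain ⟨e, rfl⟩ := Submodule.mkQ_surjective _ x
    obtain ⟨w, rfl⟩ := h.alph_surjective hu e
    exact ⟨ρ w, hπρ w⟩
  have hker : LinearMap.ker π = Submodule.map ρ (LinearMap.ker (alph T i u)) := by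
    apply le_antisymm
    · intro w hw
      have h1 : alph T i u (inc w) ∈ LinearMap.range (δ i j) := by
        have : q (alph T i u (inc w)) = 0 := hw
        rwa [Submodule.mkQ_apply, Submodule.Quotient.mk_eq_zero] at this
      obtain ⟨⟨a, a'⟩, ha⟩ := h1
      obtain ⟨p, rfl⟩ := hφ a
      obtain ⟨p', rfl⟩ := hφ' a'
      refine ⟨inc w - toF B (fun n => (n : ℤ)) p + toF B (fun n => -(N : ℤ) - n) p', ?_, ?_⟩
      · change alph T i u _ = 0
        rw [map_add, map_sub, h.alph_toF, h.alph_toF_neg huv, ← ha]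
        simp [δ]
      · rw [map_add, map_sub, hρinc, hρpos, hρneg, sub_zero, add_zero]
    · rintro _ ⟨w, hw, rfl⟩
      rw [LinearMap.mem_ker, hπρ, LinearMap.mem_ker.mp hw, map_zero]
  refine Module.finitePresentation_of_free_of_surjective π hπ ?_
  rw [hker]
  exact h.fg_map_ker_alph hu huv ρ (fun p _ => hρpos p) (fun p _ => hρneg p)

end IsPair

end alph

end Kernel

section Openness

open TensorProduct

/-- A finitely generated module which vanishes over a field-valued point is killed by an element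
not vanishing at that point. -/
theorem exists_smul_eq_zero_of_subsingleton {B : Type*} [CommRing B] {M : Type*} [AddCommGroup M]
    [Module B M] [Module.Finite B M] (K : Type*) [Field K] [Algebra B K]
    [hsub : Subsingleton (K ⊗[B] M)] :
    ∃ b : B, algebraMap B K b ≠ 0 ∧ ∀ m : M, b • m = 0 := by
  let p : Ideal B := RingHom.ker (algebraMap B K)
  have hp : p.IsPrime := RingHom.ker_isPrime _
  let L := p.ResidueField
  let f : L →+* K := Ideal.ResidueField.lift p (algebraMap B K) (le_refl _) (by
    intro x hx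
    have : x ∉ p := hx
    change IsUnit (algebraMap B K x)
    rw [isUnit_iff_ne_zero]
    exact fun h => this h)
  let : Algebra L K := f.toAlgebra
  have : IsScalarTower B L K := by
    apply IsScalarTower.of_algebraMap_eq
    intro x
    change algebraMap B K x = f (algebraMap B L x)
    simp [f, L]
  have e : K ⊗[L] (L ⊗[B] M) ≃ₗ[K] K ⊗[B] M := AlgebraTensorModule.cancelBaseChange B L K K M
  have : Subsingleton (K ⊗[L] (L ⊗[B] M)) := e.toEquiv.subsingleton
  have h2 : Subsingleton (L ⊗[B] M) :=
    (Module.FaithfullyFlat.subsingleton_tensorProduct_iff_right L K).mp inferInstance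
  have h3 : (⟨p, hp⟩ : PrimeSpectrum B) ∉ Module.support B M := by
    rw [Module.mem_support_iff_nontrivial_residueField_tensorProduct]
    exact not_nontrivial_iff_subsingleton.mpr h2
  rw [Module.mem_support_iff_of_finite] at h3
  obtain ⟨b, hb, hbp⟩ := SetLike.not_le_iff_exists.mp h3
  exact ⟨b, hbp, fun m => Module.mem_annihilator.mp hb m⟩

theorem lTensor_ker_injective {B : Type*} [CommRing B] {M N : Type*} [AddCommGroup M]
    [Module B M] [AddCommGroup N] [Module B N] [Module.Flat B N] (f : M →ₗ[B] N) (b : B)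
    (hb : ∀ n, b • n ∈ LinearMap.range f) (K : Type*) [Field K] [Algebra B K]
    (hK : algebraMap B K b ≠ 0) :
    Function.Injective ((LinearMap.ker f).subtype.lTensor K) := by
  let S := Localization.Away b
  let σ : S →ₐ[B] K :=
    IsLocalization.liftAlgHom (M := Submonoid.powers b) (f := Algebra.ofId B K) (by
      rintro ⟨_, n, rfl⟩
      simp only [map_pow]
      exact (isUnit_iff_ne_zero.mpr hK).pow n)
  have hex : Function.Exact ((LinearMap.ker f).subtype.lTensor S) (f.lTensor S) :=
    Module.Flat.lTensor_exact S (LinearMap.exact_subtype_ker_map f)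
  have hinj : Function.Injective ((LinearMap.ker f).subtype.lTensor S) :=
    Module.Flat.lTensor_preserves_injective_linearMap _ (Submodule.injective_subtype _)
  have hsurj : Function.Surjective (f.lTensor S) := by
    rw [← LinearMap.range_eq_top, eq_top_iff]
    rintro x -
    induction x with
    | zero => exact Submodule.zero_mem _
    | add x y hx hy => exact Submodule.add_mem _ hx hy
    | tmul s n =>
      obtain ⟨m, hm⟩ := hb n
      obtain ⟨u, hu⟩ := IsLocalization.Away.algebraMap_isUnit (S := S) b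
      refine ⟨(s * ↑u⁻¹) ⊗ₜ m, ?_⟩
      rw [LinearMap.lTensor_tmul, hm, ← TensorProduct.smul_tmul, Algebra.smul_def, ← hu]
      congr 1
      rw [mul_comm s, ← mul_assoc, Units.mul_inv, one_mul]
  have key := LinearMap.lTensor_injective_of_exact_of_flat (f.lTensor S) hsurj
    ((LinearMap.ker f).subtype.lTensor S) hinj hex K
  -- the comparison maps
  let μ : K ⊗[B] S →ₗ[B] K := LinearMap.mul' B K ∘ₗ (σ.toLinearMap.lTensor K)
  let ret : ∀ (P : Type _) [AddCommGroup P] [Module B P], K ⊗[B] (S ⊗[B] P) →ₗ[B] K ⊗[B] P :=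
    fun P _ _ => (μ.rTensor P) ∘ₗ (TensorProduct.assoc B K S P).symm.toLinearMap
  let inc : ∀ (P : Type _) [AddCommGroup P] [Module B P], K ⊗[B] P →ₗ[B] K ⊗[B] (S ⊗[B] P) :=
    fun P _ _ => (TensorProduct.mk B S P 1).lTensor K
  have hret : ∀ (P : Type _) [AddCommGroup P] [Module B P] (x : K ⊗[B] P),
      ret P (inc P x) = x := by
    intro P _ _ x
    induction x with
    | zero => simp
    | add x y hx hy => rw [map_add, map_add, hx, hy]
    | tmul k p => simp [ret, inc, μ]
  have hnat : ∀ x : K ⊗[B] (LinearMap.ker f),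
      inc M ((LinearMap.ker f).subtype.lTensor K x) =
        ((LinearMap.ker f).subtype.lTensor S).lTensor K (inc (LinearMap.ker f) x) := by
    intro x
    induction x with
    | zero => simp
    | add x y hx hy => simp only [map_add, hx, hy]
    | tmul k p => simp [inc]
  rw [injective_iff_map_eq_zero]
  intro x hx
  have h1 := hnat x
  rw [hx, map_zero] at h1
  have h2 : inc (LinearMap.ker f) x = 0 := by
    apply key
    rw [← h1, map_zero]
  rw [← hret (LinearMap.ker f) x, h2, map_zero]

variable {B : Type*} [CommRing B]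
variable {E : Type*} [AddCommGroup E] [Module B E] [Module B[X] E] [IsScalarTower B B[X] E]
variable {E' : Type*} [AddCommGroup E'] [Module B E'] [Module B[X] E'] [IsScalarTower B B[X] E']
variable {E'' : Type*} [AddCommGroup E''] [Module B E'']
variable {T : E'' ≃ₗ[B] E''} {i : E →ₗ[B] E''} {j : E' →ₗ[B] E''}

namespace IsPair

/-- Openness of the locus where the cohomology vanishes. -/
theorem exists_of_bijective_baseChange (h : IsPair T i j) [Module.FinitePresentation B[X] E]
    [Module.Finite B[X] E'] [Module.Flat B E''] (K : Type*) [Field K] [Algebra B K]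
    (hK : Function.Bijective ((δ i j).baseChange K)) :
    ∃ b : B, algebraMap B K b ≠ 0 ∧ (∀ e'' : E'', b • e'' ∈ LinearMap.range (δ i j)) ∧
      ∀ x ∈ LinearMap.ker (δ i j), b • x = 0 := by
  have hK' : Function.Bijective ((δ i j).lTensor K) := hK
  -- cokernel
  have := h.finite_coker
  have hs : Subsingleton (K ⊗[B] (E'' ⧸ LinearMap.range (δ i j))) := by
    refine subsingleton_of_forall_eq 0 fun x => ?_
    have hs1 : Function.Surjective ((LinearMap.range (δ i j)).mkQ.lTensor K) :=
      LinearMap.lTensor_surjective K (Submodule.mkQ_surjective _)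
    obtain ⟨y, rfl⟩ := hs1 x
    obtain ⟨z, rfl⟩ := hK'.2 y
    rw [← LinearMap.comp_apply, ← LinearMap.lTensor_comp]
    have : (LinearMap.range (δ i j)).mkQ ∘ₗ (δ i j) = 0 := LinearMap.range_mkQ_comp _
    rw [this, LinearMap.lTensor_zero, LinearMap.zero_apply]
  obtain ⟨b₁, hb₁K, hb₁⟩ :=
    exists_smul_eq_zero_of_subsingleton (B := B) (M := E'' ⧸ LinearMap.range (δ i j)) K
  have hb₁' : ∀ e'' : E'', b₁ • e'' ∈ LinearMap.range (δ i j) := by
    intro e''
    have := hb₁ (Submodule.Quotient.mk e'')
    rwa [← Submodule.Quotient.mk_smul, Submodule.Quotient.mk_eq_zero] at this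
  obtain ⟨P, hPfg, hPker, hP⟩ := h.exists_fg_le_ker b₁ hb₁'
  -- `K ⊗ ker = 0`
  have hker0 : ∀ x : K ⊗[B] (LinearMap.ker (δ i j)), x = 0 := by
    intro x
    apply lTensor_ker_injective (δ i j) b₁ hb₁' K hb₁K
    apply hK'.1
    rw [map_zero, map_zero, ← LinearMap.comp_apply, ← LinearMap.lTensor_comp,
      LinearMap.comp_ker_subtype, LinearMap.lTensor_zero, LinearMap.zero_apply]
  have : Module.Finite B P := Module.Finite.iff_fg.mpr hPfg
  have hsP : Subsingleton (K ⊗[B] P) := by
    refine subsingleton_of_forall_eq 0 fun x => ?_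
    -- multiplication by `b₁` on `P` factors through `ker`
    let g : LinearMap.ker (δ i j) →ₗ[B] P :=
      LinearMap.codRestrict P (b₁ • (LinearMap.ker (δ i j)).subtype) (fun x => hP x x.2)
    let f : P →ₗ[B] LinearMap.ker (δ i j) := Submodule.inclusion hPker
    have hgf : g ∘ₗ f = b₁ • LinearMap.id := by
      ext x <;> rfl
    have h1 : (g ∘ₗ f).lTensor K x = 0 := by
      rw [LinearMap.lTensor_comp, LinearMap.comp_apply, hker0 (f.lTensor K x), map_zero]
    rw [hgf, LinearMap.lTensor_smul, LinearMap.lTensor_id, LinearMap.smul_apply,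
      LinearMap.id_apply] at h1
    have h2 : (algebraMap B K b₁) • x = 0 := by
      rw [algebraMap_smul]; exact h1
    exact (smul_eq_zero.mp h2).resolve_left hb₁K
  obtain ⟨b₂, hb₂K, hb₂⟩ := exists_smul_eq_zero_of_subsingleton (B := B) (M := P) K
  refine ⟨b₂ * b₁, ?_, ?_, ?_⟩
  · rw [map_mul]; exact mul_ne_zero hb₂K hb₁K
  · intro e''
    rw [mul_smul]
    exact Submodule.smul_mem _ _ (hb₁' e'')
  · intro x hx
    rw [mul_smul]
    exact congrArg Subtype.val (hb₂ ⟨b₁ • x, hP x hx⟩)

end IsPair

/-- If the kernel and cokernel are killed by `b`, then the map becomes bijective over every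
algebra in which `b` is invertible. -/
theorem bijective_baseChange_of_isUnit {M N : Type*} [AddCommGroup M] [Module B M]
    [AddCommGroup N] [Module B N] (f : M →ₗ[B] N) (b : B)
    (hb : ∀ n, b • n ∈ LinearMap.range f) (hb' : ∀ x ∈ LinearMap.ker f, b • x = 0)
    (B' : Type*) [CommRing B'] [Algebra B B'] (hB' : IsUnit (algebraMap B B' b)) :
    Function.Bijective (f.baseChange B') := by
  -- construct `g : N → M` with `f ∘ g = b^2`, `g ∘ f = b^2`
  have hg : ∀ n : N, ∃ m : M, f m = b • n := fun n => hb n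
  choose g0 hg0 using hg
  let g : N →ₗ[B] M :=
    { toFun := fun n => b • g0 n
      map_add' := fun x y => by
        have : g0 (x + y) - (g0 x + g0 y) ∈ LinearMap.ker f := by
          rw [LinearMap.mem_ker, map_sub, map_add, hg0, hg0, hg0, smul_add, sub_self]
        have h1 := hb' _ this
        rw [smul_sub, sub_eq_zero] at h1
        rw [h1, smul_add]
      map_smul' := fun c x => by
        have : g0 (c • x) - c • g0 x ∈ LinearMap.ker f := by
          rw [LinearMap.mem_ker, map_sub, map_smul, hg0, hg0, smul_comm, sub_self]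
        have h1 := hb' _ this
        rw [smul_sub, sub_eq_zero] at h1
        rw [h1, RingHom.id_apply, smul_comm] }
  have hfg : f ∘ₗ g = (b * b) • LinearMap.id := by
    ext n
    simp only [LinearMap.coe_comp, Function.comp_apply, LinearMap.coe_mk, AddHom.coe_mk, g,
      map_smul, hg0, LinearMap.smul_apply, LinearMap.id_apply, mul_smul]
  have hgf : g ∘ₗ f = (b * b) • LinearMap.id := by
    ext m
    have : g0 (f m) - b • m ∈ LinearMap.ker f := by
      rw [LinearMap.mem_ker, map_sub, map_smul, hg0, sub_self]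
    have h1 := hb' _ this
    rw [smul_sub, sub_eq_zero] at h1
    simp only [LinearMap.coe_comp, Function.comp_apply, LinearMap.coe_mk, AddHom.coe_mk, g,
      LinearMap.smul_apply, LinearMap.id_apply, mul_smul, h1]
  have hu : IsUnit (algebraMap B B' (b * b)) := by
    rw [map_mul]; exact hB'.mul hB'
  have h1 : ∀ x, f.baseChange B' (g.baseChange B' x) = (algebraMap B B' (b * b)) • x := by
    intro x
    rw [← LinearMap.comp_apply, ← LinearMap.baseChange_comp, hfg, LinearMap.baseChange_smul,
      LinearMap.baseChange_id, LinearMap.smul_apply, LinearMap.id_apply, algebraMap_smul]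
  have h2 : ∀ x, g.baseChange B' (f.baseChange B' x) = (algebraMap B B' (b * b)) • x := by
    intro x
    rw [← LinearMap.comp_apply, ← LinearMap.baseChange_comp, hgf, LinearMap.baseChange_smul,
      LinearMap.baseChange_id, LinearMap.smul_apply, LinearMap.id_apply, algebraMap_smul]
  obtain ⟨u, hu⟩ := hu
  constructor
  · rw [injective_iff_map_eq_zero]
    intro x hx
    have h3 := h2 x
    rw [hx, map_zero, ← hu] at h3
    have h4 : (u⁻¹ : B'ˣ) • ((u : B') • x) = 0 := by rw [← h3, smul_zero]
    rwa [← Units.smul_def, inv_smul_smul] at h4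
  · intro y
    refine ⟨(u⁻¹ : B'ˣ) • g.baseChange B' y, ?_⟩
    rw [Units.smul_def, map_smul, h1, ← hu, ← Units.smul_def, ← Units.smul_def, inv_smul_smul]

end Openness

end Fermat.Agent.S25c
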