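import Fermat.Agent.S25.TwoTerm

/-!
# Twists, projectivity of `H⁰`, Euler characteristics for two-term complexes
-/

open Polynomial TensorProduct

namespace Fermat.Agent.S25c

section Twist

variable {B : Type*} [CommRing B]
variable {E : Type*} [AddCommGroup E] [Module B E] [Module B[X] E] [IsScalarTower B B[X] E]
variable {E' : Type*} [AddCommGroup E'] [Module B E'] [Module B[X] E'] [IsScalarTower B B[X] E']
variable {E'' : Type*} [AddCommGroup E''] [Module B E'']
variable {T : E'' ≃ₗ[B] E''} {i : E →ₗ[B] E''} {j : E' →ₗ[B] E''}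

namespace IsPair

omit [IsScalarTower B B[X] E] [IsScalarTower B B[X] E'] in
/-- Twisting by `𝒪(m)`. -/
theorem twist (h : IsPair T i j) (m : ℤ) : IsPair T i ((T ^ m).toLinearMap ∘ₗ j) where
  hi := h.hi
  hj e := by
    simp only [LinearMap.coe_comp, LinearEquiv.coe_coe, Function.comp_apply, h.hj]
    rw [← LinearEquiv.mul_apply, ← LinearEquiv.mul_apply,
      ((Commute.refl T).zpow_left m).inv_right.eq]
  si := h.si
  sj e'' := by
    obtain ⟨n, hn⟩ := h.sj' e''
    have h1 : n ≤ n + m.natAbs + m.toNat := by omega
    obtain ⟨k, hk⟩ : ∃ k : ℕ, (n : ℤ) + m.natAbs + m = k := ⟨(n + m.natAbs + m).toNat, by omega⟩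
    obtain ⟨e, he⟩ := hn k (by omega)
    refine ⟨n + m.natAbs, e, ?_⟩
    simp only [LinearMap.coe_comp, LinearEquiv.coe_coe, Function.comp_apply, he]
    rw [← LinearEquiv.mul_apply]
    congr 1
    rw [inv_pow, inv_pow, ← zpow_natCast, ← zpow_natCast, ← zpow_neg, ← zpow_neg, ← zpow_add]
    congr 1
    rw [← hk]
    push_cast
    ring
  ki := h.ki
  kj e he := h.kj e (by
    simp only [LinearMap.coe_comp, LinearEquiv.coe_coe, Function.comp_apply] at he
    exact (T ^ m).map_eq_zero_iff.mp he)

omit [IsScalarTower B B[X] E'] in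
/-- For `m` large, `H¹` of the `m`-th twist vanishes. -/
theorem exists_twist_surjective (h : IsPair T i j) [Module.Finite B[X] E]
    [Module.Finite B[X] E'] :
    ∃ m₀ : ℤ, ∀ m : ℤ, m₀ ≤ m →
      Function.Surjective (δ i ((T ^ m).toLinearMap ∘ₗ j)) := by
  classical
  obtain ⟨ι, _, N, u, v, hN, hu, hv, huv⟩ := h.exists_generators
  refine ⟨N, fun m hm e'' => ?_⟩
  obtain ⟨w, rfl⟩ := h.alph_surjective hu e''
  change _ ∈ LinearMap.range _
  induction w using Finsupp.induction_linear with
  | zero => rw [map_zero]; exact Submodule.zero_mem _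
  | add f g hf hg => rw [map_add]; exact Submodule.add_mem _ hf hg
  | single q c =>
    obtain ⟨s, k⟩ := q
    rw [alph_single]
    apply Submodule.smul_mem
    by_cases hk : 0 ≤ k
    · refine ⟨((X : B[X]) ^ k.toNat • u s, 0), ?_⟩
      simp only [δ, LinearMap.coprod_apply, map_zero, add_zero]
      rw [i_X_pow_smul h.hi, ← zpow_natCast, Int.toNat_of_nonneg hk]
    · obtain ⟨l, hl⟩ : ∃ l : ℕ, m - N - k = l := ⟨(m - N - k).toNat, by omega⟩
      refine ⟨(0, -((X : B[X]) ^ l • v s)), ?_⟩
      simp only [δ, LinearMap.coprod_apply, map_zero, zero_add, LinearMap.neg_apply, map_neg,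
        neg_neg, LinearMap.coe_comp, LinearEquiv.coe_coe, Function.comp_apply]
      rw [i_X_pow_smul h.hj, huv, inv_pow_inv_pow, ← LinearEquiv.mul_apply, ← zpow_add]
      congr 2
      omega

/-- If `H¹ = 0` and everything is projective over `B`, then `H⁰` is finitely generated
projective. -/
theorem finite_ker_of_surjective (h : IsPair T i j) [Module.FinitePresentation B[X] E]
    [Module.Finite B[X] E'] (hs : Function.Surjective (δ i j)) :
    Module.Finite B (LinearMap.ker (δ i j)) := by
  obtain ⟨P, hP, hP1, hP2⟩ := h.exists_fg_le_ker 1 (fun e'' => by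
    rw [one_smul]
    exact hs e'')
  have : P = LinearMap.ker (δ i j) :=
    le_antisymm hP1 (fun x hx => by simpa using hP2 x hx)
  rw [this] at hP
  exact Module.Finite.iff_fg.mpr hP

end IsPair

/-- The kernel of a surjection from a projective module onto a projective module is
projective. -/
theorem projective_ker_of_surjective {M N : Type*} [AddCommGroup M] [Module B M]
    [AddCommGroup N] [Module B N] [Module.Projective B M] [Module.Projective B N]
    (f : M →ₗ[B] N) (hf : Function.Surjective f) : Module.Projective B (LinearMap.ker f) := by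
  obtain ⟨g, hg⟩ := Module.projective_lifting_property f LinearMap.id hf
  have hg' : ∀ n, f (g n) = n := fun n => LinearMap.congr_fun hg n
  let r : M →ₗ[B] LinearMap.ker f := LinearMap.codRestrict _ (LinearMap.id - g ∘ₗ f) (by
    intro m
    simp [hg'])
  refine Module.Projective.of_split (LinearMap.ker f).subtype r ?_
  ext ⟨m, hm⟩
  simp [r, LinearMap.mem_ker.mp hm]

/-- Base change of the kernel of a surjection onto a flat module. -/
theorem ker_baseChange_of_surjective {M N : Type*} [AddCommGroup M] [Module B M]
    [AddCommGroup N] [Module B N] [Module.Flat B N]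
    (f : M →ₗ[B] N) (hf : Function.Surjective f) (B' : Type*) [CommRing B'] [Algebra B B'] :
    Function.Injective ((LinearMap.ker f).subtype.baseChange B') ∧
      LinearMap.range ((LinearMap.ker f).subtype.baseChange B') =
        LinearMap.ker (f.baseChange B') := by
  constructor
  · exact LinearMap.lTensor_injective_of_exact_of_flat f hf (LinearMap.ker f).subtype
      (Submodule.injective_subtype _) (LinearMap.exact_subtype_ker_map f) B'
  · have := lTensor_exact B' (LinearMap.exact_subtype_ker_map f) hf
    ext x
    exact (this x).symm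

end Twist

end Fermat.Agent.S25c
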